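import Fermat.Agent.Theta.Cusp

/-!
Products of two binary theta series as modular forms of weight two, with convolution coefficients,
and cusp forms from character sums of such products (equality of binary Gauss sums within a genus).
-/

set_option autoImplicit false

open Complex Matrix
open scoped Real ComplexOrder UpperHalfPlane MatrixGroups

namespace Fermat.Agent.Theta

/-- Coefficients `a x² + b x y + c y²` of a binary form. -/
@[ext] structure BinForm where
  a : ℤ
  b : ℤ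
  c : ℤ

namespace BinForm

variable {R : Type*} [CommRing R]

/-- The value of a binary form. -/
def eval (q : BinForm) (v : R × R) : R :=
  (q.a : R) * v.1 ^ 2 + (q.b : R) * (v.1 * v.2) + (q.c : R) * v.2 ^ 2

/-- `D` such that the discriminant is `-D`. -/
def negDisc (q : BinForm) : ℤ := 4 * q.a * q.c - q.b ^ 2

/-- Positive definite. -/
def IsPos (q : BinForm) : Prop := 0 < q.a ∧ 0 < q.negDisc

/-- The representation numbers. -/
noncomputable def count (q : BinForm) (m : ℕ) : ℕ :=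
  Nat.card {v : ℤ × ℤ // q.eval v = (m : ℤ)}

/-- The binary Gauss sum. -/
noncomputable def gaussSum₂ (q : BinForm) (c : ℕ) [NeZero c] (a : ℤ) : ℂ :=
  ∑ r : ZMod c × ZMod c, ZMod.stdAddChar ((a : ZMod c) * q.eval r)

theorem eval_pos {q : BinForm} (hq : q.IsPos) {x y : ℝ} (h : x ≠ 0 ∨ y ≠ 0) :
    0 < q.eval ((x, y) : ℝ × ℝ) := by
  have ha : (0 : ℝ) < q.a := by exact_mod_cast hq.1
  have hd : (0 : ℝ) < q.negDisc := by exact_mod_cast hq.2
  have e : 4 * (q.a : ℝ) * q.eval ((x, y) : ℝ × ℝ) =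
      (2 * (q.a : ℝ) * x + q.b * y) ^ 2 + q.negDisc * y ^ 2 := by
    simp only [eval, negDisc]; push_cast; ring
  rcases eq_or_ne y 0 with rfl | hy
  · have hx := sq_pos_of_ne_zero (h.resolve_right (not_not.mpr rfl))
    simp only [eval]
    ring_nf
    nlinarith
  · nlinarith [sq_nonneg (2 * (q.a : ℝ) * x + q.b * y), mul_pos hd (sq_pos_of_ne_zero hy)]

/-- Forms related by a similarity invertible modulo `c` have the same Gauss sum. -/
theorem gaussSum₂_eq_of_similar {q q' : BinForm} (c : ℕ) [NeZero c] {m₁ m₂ m₃ m₄ k : ℤ}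
    (hM : IsCoprime (m₁ * m₄ - m₂ * m₃) (c : ℤ)) (hk : IsCoprime k (c : ℤ))
    (h : ∀ x y : ℤ, q.eval (m₁ * x + m₂ * y, m₃ * x + m₄ * y) = k ^ 2 * q'.eval (x, y)) (a : ℤ) :
    q'.gaussSum₂ c a = q.gaussSum₂ c a := by
  have hu : IsUnit ((m₁ * m₄ - m₂ * m₃ : ℤ) : ZMod c) := (ZMod.coe_int_isUnit_iff_isCoprime _ _).mpr hM.symm
  obtain ⟨k', hk'⟩ := isUnit_iff_exists_inv.mp ((ZMod.coe_int_isUnit_iff_isCoprime _ _).mpr hk.symm)
  obtain ⟨d', hd'⟩ := isUnit_iff_exists_inv.mp hu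
  push_cast at hd'
  set f : ZMod c × ZMod c → ZMod c × ZMod c := fun r =>
    (k' * ((m₁ : ZMod c) * r.1 + (m₂ : ZMod c) * r.2),
      k' * ((m₃ : ZMod c) * r.1 + (m₄ : ZMod c) * r.2)) with hf
  have hinj : Function.Injective f := by
    intro r s hrs
    simp only [hf, Prod.mk.injEq] at hrs
    obtain ⟨h1, h2⟩ := hrs
    have e1 := congrArg ((k : ZMod c) * ·) h1
    have e2 := congrArg ((k : ZMod c) * ·) h2
    simp only [← mul_assoc, hk', one_mul] at e1 e2
    refine Prod.ext ?_ ?_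
    · linear_combination d' * (m₄ : ZMod c) * e1 - d' * (m₂ : ZMod c) * e2 - (r.1 - s.1) * hd'
    · linear_combination d' * (m₁ : ZMod c) * e2 - d' * (m₃ : ZMod c) * e1 - (r.2 - s.2) * hd'
  have hval : ∀ r : ZMod c × ZMod c, q.eval (f r) = q'.eval r := by
    rintro ⟨x, y⟩
    obtain ⟨x, rfl⟩ := ZMod.intCast_surjective x
    obtain ⟨y, rfl⟩ := ZMod.intCast_surjective y
    have h' := congrArg (fun z : ℤ => (z : ZMod c)) (h x y)
    simp only [eval, Int.cast_id, Int.cast_add, Int.cast_mul, Int.cast_pow] at h'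
    simp only [eval, hf]
    linear_combination (k' ^ 2) * h' +
      ((q'.a : ZMod c) * (x : ZMod c) ^ 2 + (q'.b : ZMod c) * ((x : ZMod c) * (y : ZMod c)) +
        (q'.c : ZMod c) * (y : ZMod c) ^ 2) * ((k : ZMod c) * k' + 1) * hk'
  unfold gaussSum₂
  rw [← (Finite.injective_iff_bijective.mp hinj).sum_comp
    (fun r => ZMod.stdAddChar ((a : ZMod c) * q.eval r))]
  simp [hval]

end BinForm

/-- The Gram matrix of the orthogonal sum of two binary forms. -/
def pairMatrix (q q' : BinForm) : Matrix (Fin 4) (Fin 4) ℤ :=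
  !![2 * q.a, q.b, 0, 0; q.b, 2 * q.c, 0, 0; 0, 0, 2 * q'.a, q'.b; 0, 0, q'.b, 2 * q'.c]

variable {q q' : BinForm}

theorem qPoly_pairMatrix {R : Type*} [CommRing R] (v : Fin 4 → R) :
    qPoly (pairMatrix q q') v = q.eval (v 0, v 1) + q'.eval (v 2, v 3) := by
  simp [qPoly, castMat, upperHalf, pairMatrix, dotProduct, mulVec, Fin.sum_univ_four, BinForm.eval]
  ring

theorem isEvenMatrix_pairMatrix : IsEvenMatrix (pairMatrix q q') where
  symm := by ext i j; fin_cases i <;> fin_cases j <;> rfl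
  even i := by fin_cases i <;> simp [pairMatrix]

theorem posDef_pairMatrix (hq : q.IsPos) (hq' : q'.IsPos) :
    (realMat (pairMatrix q q')).PosDef := by
  refine Matrix.PosDef.of_dotProduct_mulVec_pos ?_ fun x hx => ?_
  · ext i j; fin_cases i <;> fin_cases j <;> simp [castMat, pairMatrix]
  · have h := two_mul_qPoly (R := ℝ) (isEvenMatrix_pairMatrix (q := q) (q' := q')) x
    rw [star_trivial, ← h, qPoly_pairMatrix]
    have h01 : 0 ≤ q.eval ((x 0, x 1) : ℝ × ℝ) := by
      by_cases h : x 0 ≠ 0 ∨ x 1 ≠ 0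
      · exact (BinForm.eval_pos hq h).le
      · push Not at h; simp [BinForm.eval, h.1, h.2]
    have h23 : 0 ≤ q'.eval ((x 2, x 3) : ℝ × ℝ) := by
      by_cases h : x 2 ≠ 0 ∨ x 3 ≠ 0
      · exact (BinForm.eval_pos hq' h).le
      · push Not at h; simp [BinForm.eval, h.1, h.2]
    by_cases h : x 0 ≠ 0 ∨ x 1 ≠ 0
    · have := BinForm.eval_pos hq h; linarith
    · have h' : x 2 ≠ 0 ∨ x 3 ≠ 0 := by
        by_contra h'
        push Not at h h'
        exact hx (funext fun i => by fin_cases i <;> simp [h.1, h.2, h'.1, h'.2])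
      have := BinForm.eval_pos hq' h'; linarith

theorem det_pairMatrix : (pairMatrix q q').det = q.negDisc * q'.negDisc := by
  simp [Matrix.det_succ_row_zero, Fin.sum_univ_succ, pairMatrix, BinForm.negDisc,
    Fin.succAbove]
  ring

/-- The orthogonal sum of two binary forms is a lattice of level `N`. -/
theorem isLattice_pairMatrix {N : ℕ} (hq : q.IsPos) (hq' : q'.IsPos)
    (hd : q.negDisc ∣ (N : ℤ)) (hd' : q'.negDisc ∣ (N : ℤ))
    (hsq : IsSquare (q.negDisc * q'.negDisc)) : IsLattice N (pairMatrix q q') := by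
  obtain ⟨k, hk⟩ := hd
  obtain ⟨k', hk'⟩ := hd'
  refine ⟨isEvenMatrix_pairMatrix, posDef_pairMatrix hq hq', ?_, det_pairMatrix ▸ hsq⟩
  refine ⟨pairMatrix ⟨q.c * k, -(q.b * k), q.a * k⟩ ⟨q'.c * k', -(q'.b * k'), q'.a * k'⟩,
    isEvenMatrix_pairMatrix, ?_⟩
  simp only [BinForm.negDisc] at hk hk'
  ext i j
  fin_cases i <;> fin_cases j <;>
    simp [pairMatrix, Matrix.mul_apply, Fin.sum_univ_four] <;>
    first
      | ring1
      | linear_combination -1 * hk
      | linear_combination -1 * hk'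

theorem repCount_pairMatrix {N : ℕ} (hA : IsLattice N (pairMatrix q q')) (hq : q.IsPos)
    (hq' : q'.IsPos) (m : ℕ) :
    repCount (pairMatrix q q') m =
      ∑ p ∈ (Finset.HasAntidiagonal.antidiagonal m : Finset (ℕ × ℕ)), q.count p.1 * q'.count p.2 := by
  have hnn : ∀ {f : BinForm}, f.IsPos → ∀ v : ℤ × ℤ, 0 ≤ f.eval v := by
    intro f hf v
    rcases eq_or_ne v 0 with rfl | hv
    · simp [BinForm.eval]
    · have hv' : (v.1 : ℝ) ≠ 0 ∨ (v.2 : ℝ) ≠ 0 := by
        by_contra h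
        push Not at h
        exact hv (Prod.ext (by exact_mod_cast h.1) (by exact_mod_cast h.2))
      have h := BinForm.eval_pos hf hv'
      have e : f.eval ((v.1 : ℝ), (v.2 : ℝ)) = ((f.eval v : ℤ) : ℝ) := by
        simp [BinForm.eval]
      rw [e] at h
      exact_mod_cast h.le
  have e : {v : Fin 4 → ℤ // qPoly (pairMatrix q q') v = (m : ℤ)} ≃
      Σ p : (Finset.HasAntidiagonal.antidiagonal m : Finset (ℕ × ℕ)),
        {v : ℤ × ℤ // q.eval v = (p.1.1 : ℤ)} × {v : ℤ × ℤ // q'.eval v = (p.1.2 : ℤ)} :=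
    { toFun := fun v =>
        ⟨⟨((q.eval (v.1 0, v.1 1)).toNat, (q'.eval (v.1 2, v.1 3)).toNat),
          Finset.HasAntidiagonal.mem_antidiagonal.mpr (by
            have := v.2; rw [qPoly_pairMatrix] at this
            have := hnn hq (v.1 0, v.1 1); have := hnn hq' (v.1 2, v.1 3)
            omega)⟩,
          ⟨(v.1 0, v.1 1), (Int.toNat_of_nonneg (hnn hq _)).symm⟩,
          ⟨(v.1 2, v.1 3), (Int.toNat_of_nonneg (hnn hq' _)).symm⟩⟩
      invFun := fun s =>
        ⟨![s.2.1.1.1, s.2.1.1.2, s.2.2.1.1, s.2.2.1.2], by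
          rw [qPoly_pairMatrix]
          have h := Finset.HasAntidiagonal.mem_antidiagonal.mp s.1.2
          show q.eval (s.2.1.1) + q'.eval (s.2.2.1) = _
          rw [s.2.1.2, s.2.2.2]
          exact_mod_cast h⟩
      left_inv := fun v => Subtype.ext (funext fun i => by fin_cases i <;> rfl)
      right_inv := by
        rintro ⟨⟨⟨i, j⟩, hp⟩, ⟨⟨x, y⟩, hx⟩, ⟨⟨z, w⟩, hz⟩⟩
        have h1 : (q.eval (x, y)).toNat = i := by rw [hx]; simp
        have h2 : (q'.eval (z, w)).toNat = j := by rw [hz]; simp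
        subst h1 h2
        rfl }
  have := finite_rep hA m
  rw [repCount, Nat.card_congr e]
  have : Finite (Σ p : (Finset.HasAntidiagonal.antidiagonal m : Finset (ℕ × ℕ)),
      {v : ℤ × ℤ // q.eval v = (p.1.1 : ℤ)} × {v : ℤ × ℤ // q'.eval v = (p.1.2 : ℤ)}) :=
    Finite.of_equiv _ e
  have hfin : ∀ p : (Finset.HasAntidiagonal.antidiagonal m : Finset (ℕ × ℕ)), Finite
      ({v : ℤ × ℤ // q.eval v = (p.1.1 : ℤ)} × {v : ℤ × ℤ // q'.eval v = (p.1.2 : ℤ)}) :=
    fun p => Finite.of_injective (β := Σ p : (Finset.HasAntidiagonal.antidiagonal m : Finset (ℕ × ℕ)),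
      {v : ℤ × ℤ // q.eval v = (p.1.1 : ℤ)} × {v : ℤ × ℤ // q'.eval v = (p.1.2 : ℤ)})
      (fun x => ⟨p, x⟩) fun x y h => eq_of_heq (Sigma.mk.inj_iff.mp h).2
  rw [Nat.card_sigma, ← Finset.sum_coe_sort ((Finset.HasAntidiagonal.antidiagonal m : Finset (ℕ × ℕ)))]
  simp [BinForm.count]

theorem gauss_pairMatrix (c : ℕ) [NeZero c] (a : ℤ) :
    gauss (pairMatrix q q') c a = q.gaussSum₂ c a * q'.gaussSum₂ c a := by
  unfold gauss BinForm.gaussSum₂
  rw [Finset.sum_mul_sum, ← Fintype.sum_prod_type']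
  let e : (Fin 4 → ZMod c) ≃ (ZMod c × ZMod c) × (ZMod c × ZMod c) :=
    { toFun := fun v => ((v 0, v 1), (v 2, v 3))
      invFun := fun s => ![s.1.1, s.1.2, s.2.1, s.2.2]
      left_inv := fun v => funext fun i => by fin_cases i <;> rfl
      right_inv := fun s => rfl }
  refine Fintype.sum_equiv e _ _ fun v => ?_
  rw [qPoly_pairMatrix, mul_add, AddChar.map_add_eq_mul]
  rfl

/-- The product of two binary theta series as a modular form. -/
noncomputable def pairForm {N : ℕ} [NeZero N] (hA : IsLattice N (pairMatrix q q')) :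
    ModularForm (CongruenceSubgroup.Gamma0 N) 2 := thetaForm hA

/-- Character sums `∑ ψ(i) θ(Q i) θ(Q₀)` are cusp forms as soon as the Gauss sums are invariant
under one translation `j` on which `ψ` is not one. -/
noncomputable def pairCuspForm {N : ℕ} [NeZero N] {G : Type*} [CommGroup G] [Fintype G]
    (ψ : G →* ℂ) (Q : G → BinForm) {D : ℤ} (hD : ∀ i, (Q i).negDisc = D) (Q₀ : BinForm)
    (hA : ∀ i, IsLattice N (pairMatrix (Q i) Q₀)) (j : G) (hj : ψ j ≠ 1)
    (hgauss : ∀ (c : ℕ) [NeZero c] (a : ℤ), IsCoprime a (c : ℤ) →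
      ∀ i, (Q (i * j)).gaussSum₂ c a = (Q i).gaussSum₂ c a) :
    CuspForm (CongruenceSubgroup.Gamma0 N) 2 :=
  have key : ∀ (f : G → ℂ), (∀ i, f (i * j) = f i) → ∑ i, ψ i * f i = 0 := fun f hf => by
    have h : ∑ i, ψ i * f i = ψ j * ∑ i, ψ i * f i := by
      rw [Finset.mul_sum]
      refine (Fintype.sum_equiv (Equiv.mulRight j) (fun i => ψ (i * j) * f (i * j)) _
        fun i => rfl).symm.trans ?_
      refine Finset.sum_congr rfl fun i _ => ?_
      simp only [map_mul, hf]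
      ring
    have h' : (ψ j - 1) * ∑ i, ψ i * f i = 0 := by linear_combination -1 * h
    exact (mul_eq_zero.mp h').resolve_left (sub_ne_zero.mpr hj)
  thetaCuspForm hA (fun i => ψ i) (by simpa using key (fun _ => 1) fun _ => rfl)
    (fun c _ a hac => by
      refine (Finset.sum_congr rfl fun i _ => ?_).trans
        (key (fun i => ((Real.sqrt ((D * Q₀.negDisc : ℤ) : ℝ) : ℝ) : ℂ)⁻¹ *
          ((Q i).gaussSum₂ c a * Q₀.gaussSum₂ c a)) fun i => by simp only [hgauss c a hac i])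
      rw [gauss_pairMatrix, show (realMat (pairMatrix (Q i) Q₀)).det =
        (((pairMatrix (Q i) Q₀).det : ℤ) : ℝ) from ((Int.castRingHom ℝ).map_det _).symm,
        det_pairMatrix, hD]
      ring)

theorem qCoeff_pairCuspForm {N : ℕ} [NeZero N] {G : Type*} [CommGroup G] [Fintype G]
    (ψ : G →* ℂ) (Q : G → BinForm) {D : ℤ} (hD : ∀ i, (Q i).negDisc = D) (Q₀ : BinForm)
    (hQ : ∀ i, (Q i).IsPos) (hQ₀ : Q₀.IsPos)
    (hA : ∀ i, IsLattice N (pairMatrix (Q i) Q₀)) (j : G) (hj : ψ j ≠ 1)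
    (hgauss : ∀ (c : ℕ) [NeZero c] (a : ℤ), IsCoprime a (c : ℤ) →
      ∀ i, (Q (i * j)).gaussSum₂ c a = (Q i).gaussSum₂ c a) (m : ℕ) :
    ModularFormClass.qCoeff (pairCuspForm ψ Q hD Q₀ hA j hj hgauss) m =
      ∑ i, ψ i * ∑ p ∈ (Finset.HasAntidiagonal.antidiagonal m : Finset (ℕ × ℕ)), ((Q i).count p.1 : ℂ) * Q₀.count p.2 := by
  rw [pairCuspForm, qCoeff_thetaCuspForm]
  refine Finset.sum_congr rfl fun i _ => ?_
  rw [repCount_pairMatrix (hA i) (hQ i) hQ₀]
  push_cast
  rfl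

end Fermat.Agent.Theta
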