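import Fermat.Agent.Theta.Modular

/-!
Linear combinations of quaternary theta series with cancelling constant terms at all cusps are cusp
forms; in particular this holds for forms of equal determinant with equal Gauss sums.
-/

set_option autoImplicit false

open Complex Matrix Filter Topology
open scoped Real ComplexOrder UpperHalfPlane MatrixGroups ModularForm Manifold

namespace Fermat.Agent.Theta

variable {N : ℕ} {ι : Type*} [Fintype ι] {A : ι → Matrix (Fin 4) (Fin 4) ℤ}

theorem smul_slash_SL (γ : SL(2, ℤ)) (x : ℂ) (f : ℍ → ℂ) :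
    (x • f) ∣[(2 : ℤ)] γ = x • (f ∣[(2 : ℤ)] γ) :=
  ModularForm.SL_smul_slash 2 γ f x

theorem isZeroAtImInfty_combination_slash (hA : ∀ i, IsLattice N (A i)) (w : ι → ℂ)
    (h0 : ∑ i, w i = 0)
    (hw : ∀ (c : ℕ) [NeZero c] (a : ℤ), IsCoprime a (c : ℤ) →
      ∑ i, w i / (Real.sqrt (realMat (A i)).det : ℂ) * gauss (A i) c a = 0)
    (γ : SL(2, ℤ)) :
    UpperHalfPlane.IsZeroAtImInfty ((∑ i, w i • theta (A i)) ∣[(2 : ℤ)] γ) := by
  have hzero : ∀ (l : ι → ℂ), (∑ i, w i * l i = 0) →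
      (∀ i, Tendsto (theta (A i) ∣[(2 : ℤ)] γ) UpperHalfPlane.atImInfty (𝓝 (l i))) →
      UpperHalfPlane.IsZeroAtImInfty ((∑ i, w i • theta (A i)) ∣[(2 : ℤ)] γ) := by
    intro l hl ht
    rw [SlashAction.sum_slash]
    show Tendsto _ _ (𝓝 0)
    rw [← hl]
    refine (tendsto_finsetSum Finset.univ fun i _ => (ht i).const_mul (w i)).congr fun τ => ?_
    simp [Finset.sum_apply]
  rcases eq_or_ne (γ 1 0) 0 with hc | hc
  · refine hzero (fun _ => 1) (by simpa using h0) fun i => ?_
    obtain ⟨k, rfl | rfl⟩ := exists_eq_T_zpow hc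
    · rw [theta_T_zpow (hA i)]; exact tendsto_theta (hA i)
    · rw [theta_neg_slash, theta_T_zpow (hA i)]; exact tendsto_theta (hA i)
  · obtain ⟨δ, hδ, c, hc0, hδc⟩ := exists_sign γ hc (∑ i, w i • theta (A i))
    have := NeZero.of_pos hc0
    have hcop : IsCoprime (δ 0 0) (c : ℤ) :=
      ⟨δ 1 1, -δ 0 1, by rw [← hδc]; linear_combination SL_det_eq δ⟩
    rw [hδ, SlashAction.sum_slash]
    show Tendsto _ _ (𝓝 0)
    have hlim := tendsto_finsetSum Finset.univ fun i _ =>
      (tendsto_theta_slash (hA i) δ hδc).const_mul (w i)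
    have hl : ∑ i, w i * (-((Real.sqrt (realMat (A i)).det : ℂ) * (c : ℂ) ^ 2)⁻¹ *
        gauss (A i) c (δ 0 0)) = 0 := by
      calc _ = -((c : ℂ) ^ 2)⁻¹ *
            ∑ i, w i / (Real.sqrt (realMat (A i)).det : ℂ) * gauss (A i) c (δ 0 0) := by
            rw [Finset.mul_sum]
            exact Finset.sum_congr rfl fun i _ => by ring
        _ = 0 := by rw [hw c (δ 0 0) hcop, mul_zero]
    rw [hl] at hlim
    refine hlim.congr fun τ => ?_
    simp [Finset.sum_apply]

/-- The cusp form attached to a combination of theta series. -/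
noncomputable def thetaCuspForm [NeZero N] (hA : ∀ i, IsLattice N (A i)) (w : ι → ℂ)
    (h0 : ∑ i, w i = 0)
    (hw : ∀ (c : ℕ) [NeZero c] (a : ℤ), IsCoprime a (c : ℤ) →
      ∑ i, w i / (Real.sqrt (realMat (A i)).det : ℂ) * gauss (A i) c a = 0) :
    CuspForm (CongruenceSubgroup.Gamma0 N) 2 where
  toFun := ∑ i, w i • theta (A i)
  slash_action_eq' g hg := by
    obtain ⟨γ, hγ, rfl⟩ := hg
    show (∑ i, w i • theta (A i)) ∣[(2 : ℤ)] γ = _
    rw [SlashAction.sum_slash]
    exact Finset.sum_congr rfl fun i _ => by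
      rw [smul_slash_SL, theta_slash (hA i) (NeZero.ne N) hγ]
  holo' := by
    have h := (∑ i, w i • thetaForm (hA i)).holo'
    convert h using 1
    funext τ
    simp [coe_thetaForm, Finset.sum_apply]
  zero_at_cusps' {c} hc := by
    rw [Subgroup.IsArithmetic.isCusp_iff_isCusp_SL2Z] at hc
    rw [OnePoint.isZeroAt_iff_forall_SL2Z hc]
    exact fun γ _ => isZeroAtImInfty_combination_slash hA w h0 hw γ

theorem qCoeff_thetaCuspForm [NeZero N] (hA : ∀ i, IsLattice N (A i)) (w : ι → ℂ)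
    (h0 : ∑ i, w i = 0)
    (hw : ∀ (c : ℕ) [NeZero c] (a : ℤ), IsCoprime a (c : ℤ) →
      ∑ i, w i / (Real.sqrt (realMat (A i)).det : ℂ) * gauss (A i) c a = 0) (m : ℕ) :
    ModularFormClass.qCoeff (thetaCuspForm hA w h0 hw) m = ∑ i, w i * repCount (A i) m := by
  refine (ModularFormClass.qExpansion_coeff_unique (f := thetaCuspForm hA w h0 hw)
    (c := fun m => ∑ i, w i * repCount (A i) m) one_pos
    (CongruenceSubgroup.one_mem_strictPeriods_Gamma0 N) (fun τ => ?_) m).symm
  show HasSum _ ((∑ i, w i • theta (A i)) τ)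
  simp only [Finset.sum_apply, Pi.smul_apply, smul_eq_mul, Finset.sum_mul]
  refine hasSum_sum fun i _ => ?_
  simpa [mul_assoc] using (hasSum_theta (hA i) τ).mul_left (w i)

/-- Forms related by a map which is invertible modulo `c` have the same Gauss sum. -/
theorem gauss_eq_of_similar {A B : Matrix (Fin 4) (Fin 4) ℤ} {c : ℕ} [NeZero c]
    (e : (Fin 4 → ZMod c) ≃ (Fin 4 → ZMod c)) (he : ∀ r, qPoly B (e r) = qPoly A r) (a : ℤ) :
    gauss A c a = gauss B c a := by
  unfold gauss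
  rw [← e.sum_comp (fun r => ZMod.stdAddChar ((a : ZMod c) * qPoly B r))]
  simp [he]

end Fermat.Agent.Theta
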