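import Mathlib

/-!
Even integral quadratic forms in four variables over an arbitrary ring, and the value `p ^ 2` of
their Gauss sum modulo a large prime when the determinant is a square.
-/

set_option autoImplicit false

open Matrix

namespace Fermat.Agent.Theta

/-- An even symmetric integral matrix. -/
structure IsEvenMatrix (A : Matrix (Fin 4) (Fin 4) ℤ) : Prop where
  symm : A.IsSymm
  even : ∀ i, (2 : ℤ) ∣ A i i

/-- The upper triangular matrix `U` with `U + Uᵀ = A`. -/
def upperHalf (A : Matrix (Fin 4) (Fin 4) ℤ) : Matrix (Fin 4) (Fin 4) ℤ :=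
  Matrix.of fun i j => if i < j then A i j else if i = j then A i i / 2 else 0

variable {R : Type*} [CommRing R]

/-- A matrix of integers read in a ring. -/
def castMat (R : Type*) [CommRing R] (A : Matrix (Fin 4) (Fin 4) ℤ) : Matrix (Fin 4) (Fin 4) R :=
  A.map (Int.cast : ℤ → R)

/-- The quadratic polynomial `Q` with `2 Q(v) = vᵀ A v`. -/
def qPoly (A : Matrix (Fin 4) (Fin 4) ℤ) (v : Fin 4 → R) : R :=
  v ⬝ᵥ (castMat R (upperHalf A) *ᵥ v)

theorem upperHalf_add_transpose {A : Matrix (Fin 4) (Fin 4) ℤ} (hA : IsEvenMatrix A) :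
    upperHalf A + (upperHalf A)ᵀ = A := by
  ext i j
  rcases lt_trichotomy i j with h | rfl | h
  · simp [upperHalf, h, h.not_gt, h.ne']
  · simp [upperHalf]
    have := hA.even i
    omega
  · simp [upperHalf, h, h.not_gt, h.ne', hA.symm.apply i j]

theorem castMat_add_transpose {A : Matrix (Fin 4) (Fin 4) ℤ} (hA : IsEvenMatrix A) :
    castMat R (upperHalf A) + (castMat R (upperHalf A))ᵀ = castMat R A := by
  ext i j
  simpa [castMat] using
    congrArg (fun z : ℤ => (z : R)) (congrFun (congrFun (upperHalf_add_transpose hA) i) j)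

theorem qPoly_add {A : Matrix (Fin 4) (Fin 4) ℤ} (hA : IsEvenMatrix A) (x y : Fin 4 → R) :
    qPoly A (x + y) = qPoly A x + qPoly A y + x ⬝ᵥ (castMat R A *ᵥ y) := by
  rw [← castMat_add_transpose hA, add_mulVec, dotProduct_add]
  have h : x ⬝ᵥ ((castMat R (upperHalf A))ᵀ *ᵥ y) = y ⬝ᵥ (castMat R (upperHalf A) *ᵥ x) := by
    rw [mulVec_transpose, dotProduct_comm, ← dotProduct_mulVec]
  rw [h]
  simp only [qPoly, mulVec_add, add_dotProduct, dotProduct_add]
  ring

theorem two_mul_qPoly {A : Matrix (Fin 4) (Fin 4) ℤ} (hA : IsEvenMatrix A) (x : Fin 4 → R) :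
    2 * qPoly A x = x ⬝ᵥ (castMat R A *ᵥ x) := by
  rw [← castMat_add_transpose hA, add_mulVec, dotProduct_add]
  have h : x ⬝ᵥ ((castMat R (upperHalf A))ᵀ *ᵥ x) = x ⬝ᵥ (castMat R (upperHalf A) *ᵥ x) := by
    rw [mulVec_transpose, dotProduct_comm, ← dotProduct_mulVec]
  rw [h, qPoly]
  ring

theorem qPoly_smul (A : Matrix (Fin 4) (Fin 4) ℤ) (c : R) (x : Fin 4 → R) :
    qPoly A (c • x) = c ^ 2 * qPoly A x := by
  simp [qPoly, mulVec_smul, sq, mul_assoc]

theorem qPoly_map {S : Type*} [CommRing S] (f : R →+* S) (A : Matrix (Fin 4) (Fin 4) ℤ)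
    (x : Fin 4 → R) : qPoly A (fun i => f (x i)) = f (qPoly A x) := by
  simp [qPoly, castMat, dotProduct, mulVec, map_sum]

theorem qPoly_intCast (A : Matrix (Fin 4) (Fin 4) ℤ) (v : Fin 4 → ℤ) :
    ((qPoly A v : ℤ) : R) = qPoly A (fun i => (v i : R)) :=
  (qPoly_map (Int.castRingHom R) A v).symm

/-- The Gauss sum of the form attached to `A`. -/
noncomputable def gauss (A : Matrix (Fin 4) (Fin 4) ℤ) (c : ℕ) [NeZero c] (a : ℤ) : ℂ :=
  ∑ r : Fin 4 → ZMod c, ZMod.stdAddChar ((a : ZMod c) * qPoly A r)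

section prime

variable {p : ℕ} [Fact p.Prime]

/-- The one variable quadratic Gauss sum. -/
theorem sum_addChar_sq (hp : p ≠ 2) {x : ZMod p} (hx : x ≠ 0) :
    ∑ s : ZMod p, ZMod.stdAddChar (x * s ^ 2) =
      (quadraticChar (ZMod p) x : ℂ) *
        gaussSum ((quadraticChar (ZMod p)).ringHomComp (Int.castRingHom ℂ))
          (ZMod.stdAddChar (N := p)) := by
  set χ := (quadraticChar (ZMod p)).ringHomComp (Int.castRingHom ℂ) with hχ
  have hchar : ringChar (ZMod p) ≠ 2 := by rwa [ZMod.ringChar_zmod_n]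
  have hfib : ∑ s : ZMod p, ZMod.stdAddChar (x * s ^ 2) =
      ∑ t : ZMod p, (((quadraticChar (ZMod p) t + 1 : ℤ)) : ℂ) * ZMod.stdAddChar (x * t) := by
    rw [← Finset.sum_fiberwise (s := Finset.univ) (g := fun s : ZMod p => s ^ 2)]
    refine Finset.sum_congr rfl fun t _ => ?_
    rw [Finset.sum_congr rfl (g := fun _ => ZMod.stdAddChar (x * t))
      (fun s hs => by rw [(Finset.mem_filter.mp hs).2]), Finset.sum_const, nsmul_eq_mul]
    congr 1
    rw [← quadraticChar_card_sqrts hchar t]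
    simp
  have hone : ∑ t : ZMod p, ZMod.stdAddChar (x * t) = 0 := by
    have hne : AddChar.mulShift (ZMod.stdAddChar (N := p)) x ≠ 1 :=
      ZMod.isPrimitive_stdAddChar p hx
    simpa [AddChar.mulShift_apply] using AddChar.sum_eq_zero_of_ne_one hne
  have hshift := gaussSum_mulShift χ (ZMod.stdAddChar (N := p)) (Units.mk0 x hx)
  have hsq : (quadraticChar (ZMod p) x : ℂ) * quadraticChar (ZMod p) x = 1 := by
    rcases quadraticChar_dichotomy hx with h | h <;> simp [h]
  rw [hfib]
  simp only [Int.cast_add, Int.cast_one, add_mul, one_mul, Finset.sum_add_distrib, hone, add_zero]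
  rw [← hshift, ← mul_assoc]
  simp only [hχ, MulChar.ringHomComp_apply, Units.val_mk0, eq_intCast, hsq, one_mul, gaussSum,
    AddChar.mulShift_apply]

/-- The Gauss sum modulo a prime not dividing twice the determinant, when it is a square. -/
theorem gauss_prime {A : Matrix (Fin 4) (Fin 4) ℤ} (hA : IsEvenMatrix A) (hsq : IsSquare A.det)
    (hp : p ≠ 2) (hdet : (A.det : ZMod p) ≠ 0) {b : ℤ} (hb : (b : ZMod p) ≠ 0) :
    gauss A p b = (p : ℂ) ^ 2 := by
  classical
  have h2 : (2 : ZMod p) ≠ 0 := by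
    have h : ((2 : ℕ) : ZMod p) ≠ 0 := by
      rw [Ne, CharP.cast_eq_zero_iff (ZMod p) p]
      exact fun h => hp ((Nat.prime_dvd_prime_iff_eq Fact.out Nat.prime_two).mp h)
    simpa using h
  have : Invertible (2 : ZMod p) := invertibleOfNonzero h2
  let M := castMat (ZMod p) A
  let B : LinearMap.BilinForm (ZMod p) (Fin 4 → ZMod p) := Matrix.toBilin' M
  have hM : M.IsSymm := hA.symm.map _
  have hB : B.IsSymm := by
    constructor
    intro x y
    simp only [B, Matrix.toBilin'_apply']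
    rw [dotProduct_mulVec, ← mulVec_transpose, hM.eq, dotProduct_comm]
  obtain ⟨v, hv⟩ := LinearMap.BilinForm.exists_orthogonal_basis (LinearMap.BilinForm.isSymm_iff.mp hB)
  let v' : Module.Basis (Fin 4) (ZMod p) (Fin 4 → ZMod p) :=
    v.reindex (finCongr (Module.finrank_fin_fun _))
  let P : Matrix (Fin 4) (Fin 4) (ZMod p) := Matrix.of fun i j => v' j i
  let d : Fin 4 → ZMod p := fun i => B (v' i) (v' i)
  have hP : P.det ≠ 0 := by
    have h : P = (Pi.basisFun (ZMod p) (Fin 4)).toMatrix v' := by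
      ext i j; simp [P, Module.Basis.toMatrix]
    rw [h]
    exact (Module.Basis.toMatrix_mul_toMatrix_flip (Pi.basisFun (ZMod p) (Fin 4)) v' |>
      fun e => left_ne_zero_of_mul (a := _) (b := (v'.toMatrix (Pi.basisFun (ZMod p) (Fin 4))).det)
        (by rw [← Matrix.det_mul, e, Matrix.det_one]; exact one_ne_zero))
  have hdiag : Pᵀ * M * P = Matrix.diagonal d := by
    ext i j
    have h : (Pᵀ * M * P) i j = B (v' i) (v' j) := by
      simp only [B, Matrix.toBilin'_apply', Matrix.mul_apply, P, Matrix.transpose_apply,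
        Matrix.of_apply, dotProduct, mulVec, Finset.mul_sum, Finset.sum_mul]
      rw [Finset.sum_comm]
      exact Finset.sum_congr rfl fun k _ => Finset.sum_congr rfl fun l _ => by ring
    rw [h]
    rcases eq_or_ne i j with rfl | hij
    · simp [d]
    · rw [Matrix.diagonal_apply_ne _ hij]
      simp only [v', Module.Basis.reindex_apply]
      exact hv (by simpa using hij)
  have hprod : ∏ i, d i = P.det ^ 2 * (A.det : ZMod p) := by
    have h := congrArg Matrix.det hdiag
    rw [Matrix.det_mul, Matrix.det_mul, Matrix.det_transpose, Matrix.det_diagonal] at h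
    rw [← h, show (A.det : ZMod p) = M.det from (Int.castRingHom (ZMod p)).map_det A]
    ring
  have hd : ∀ i, d i ≠ 0 := fun i hi =>
    mul_ne_zero (pow_ne_zero 2 hP) hdet (hprod ▸ Finset.prod_eq_zero (Finset.mem_univ i) hi)
  set k : ZMod p := (b : ZMod p) * ⅟2 with hk
  have hk0 : k ≠ 0 := mul_ne_zero hb (Invertible.ne_zero _)
  have hinj : Function.Bijective (fun s : Fin 4 → ZMod p => P *ᵥ s) := by
    rw [Finite.injective_iff_bijective.symm]
    exact Matrix.mulVec_injective_iff_isUnit.mpr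
      ((Matrix.isUnit_iff_isUnit_det P).mpr (Ne.isUnit hP))
  have hterm : ∀ s : Fin 4 → ZMod p,
      ZMod.stdAddChar ((b : ZMod p) * qPoly A (P *ᵥ s)) =
        ∏ i, ZMod.stdAddChar (k * d i * s i ^ 2) := fun s => by
    have hsum : ∀ (t : Finset (Fin 4)) (f : Fin 4 → ZMod p),
        ZMod.stdAddChar (∑ i ∈ t, f i) = ∏ i ∈ t, ZMod.stdAddChar (f i) := fun t f => by
      induction t using Finset.induction_on with
      | empty => simp [AddChar.map_zero_eq_one]
      | insert i t hi IH => simp [hi, IH, AddChar.map_add_eq_mul]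
    rw [← hsum Finset.univ]
    congr 1
    have h : (b : ZMod p) * qPoly A (P *ᵥ s) = k * (2 * qPoly A (P *ᵥ s)) := by
      rw [hk]; ring_nf; simp [mul_assoc]
    have hs : (P *ᵥ s) ⬝ᵥ (M *ᵥ (P *ᵥ s)) = s ⬝ᵥ ((Pᵀ * M * P) *ᵥ s) := by
      rw [← mulVec_mulVec, ← mulVec_mulVec, dotProduct_mulVec s Pᵀ, vecMul_transpose]
    rw [h, two_mul_qPoly hA, hs, hdiag, dotProduct, Finset.mul_sum]
    refine Finset.sum_congr rfl fun i _ => ?_
    rw [Matrix.mulVec_diagonal]
    ring
  unfold gauss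
  rw [← hinj.sum_comp]
  simp only [hterm]
  rw [← Fintype.prod_sum (fun i (t : ZMod p) => ZMod.stdAddChar (k * d i * t ^ 2))]
  simp only [sum_addChar_sq hp (mul_ne_zero hk0 (hd _)), Finset.prod_mul_distrib,
    Finset.prod_const, Finset.card_univ, Fintype.card_fin]
  set χ := (quadraticChar (ZMod p)).ringHomComp (Int.castRingHom ℂ) with hχ
  have hq1 : quadraticChar (ZMod p) ≠ 1 := quadraticChar_ne_one (by rwa [ZMod.ringChar_zmod_n])
  have hχ1 : χ ≠ 1 := (MulChar.ringHomComp_ne_one_iff Int.cast_injective).mpr hq1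
  have hg : gaussSum χ (ZMod.stdAddChar (N := p)) ^ 4 = (p : ℂ) ^ 2 := by
    rw [show (4 : ℕ) = 2 * 2 from rfl, pow_mul, gaussSum_sq hχ1
      ((quadraticChar_isQuadratic (ZMod p)).comp _) (ZMod.isPrimitive_stdAddChar p), mul_pow,
      ZMod.card]
    rcases quadraticChar_dichotomy (neg_ne_zero.mpr (one_ne_zero (α := ZMod p))) with h | h <;>
      simp [hχ, MulChar.ringHomComp_apply, h]
  have hqc : ∏ i, (quadraticChar (ZMod p) (k * d i) : ℂ) = 1 := by
    rw [← Int.cast_prod, ← map_prod, Finset.prod_mul_distrib, Finset.prod_const,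
      Finset.card_univ, Fintype.card_fin, hprod]
    obtain ⟨m, hm⟩ := hsq
    have hm0 : (m : ZMod p) ≠ 0 := fun h => hdet (by rw [hm]; push_cast; rw [h, mul_zero])
    have : k ^ 4 * (P.det ^ 2 * (A.det : ZMod p)) = (k ^ 2 * P.det * (m : ZMod p)) ^ 2 := by
      rw [hm]; push_cast; ring
    rw [this, quadraticChar_sq_one' (mul_ne_zero (mul_ne_zero (pow_ne_zero 2 hk0) hP) hm0),
      Int.cast_one]
  rw [hg, hqc, one_mul]

end prime

end Fermat.Agent.Theta
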