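import Fermat.Agent.Theta.Transform
import Fermat.Prelude.Thm_CongruenceSubgroup_one_mem_strictPeriods_Gamma0
import Fermat.Prelude.Def_FLTPrelim_Modularity

/-!
The theta series of an even positive quaternary form of square determinant and level dividing `N`
is a modular form of weight two on `Γ₀(N)`, with the representation numbers as coefficients.
-/

set_option autoImplicit false

open Complex Matrix Filter Topology
open scoped Real ComplexOrder UpperHalfPlane MatrixGroups ModularForm Manifold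

namespace Fermat.Agent.Theta

variable {A : Matrix (Fin 4) (Fin 4) ℤ} {N : ℕ}

theorem qR_nonneg {n : ℕ} {B : Matrix (Fin n) (Fin n) ℝ} (hB : B.PosDef) (x : Fin n → ℝ) :
    0 ≤ qR B x := by
  rcases eq_or_ne x 0 with rfl | hx
  · simp [qR]
  · exact (qR_pos hB hx).le

theorem norm_gTerm_le {n : ℕ} {B : Matrix (Fin n) (Fin n) ℝ} (hB : B.PosDef) {ε : ℝ} {z : ℂ}
    (hz : ε ≤ z.im) (v : Fin n → ℤ) : ‖gTerm B z 0 v‖ ≤ ‖gTerm B (ε * I) 0 v‖ := by
  simp only [norm_gTerm, Pi.zero_apply, Complex.zero_im, zero_mul, Finset.sum_const_zero,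
    mul_zero, sub_zero, Real.exp_le_exp]
  have h1 := qR_nonneg hB (fun i => (v i : ℝ))
  have h2 : π * (ε * I : ℂ).im * qR B (fun i => (v i : ℝ)) ≤ π * z.im * qR B (fun i => (v i : ℝ)) :=
    mul_le_mul_of_nonneg_right (mul_le_mul_of_nonneg_left (by simpa using hz) Real.pi_pos.le) h1
  linarith

theorem mdifferentiable_theta (hA : IsLattice N A) : MDifferentiable 𝓘(ℂ) 𝓘(ℂ) (theta A) := by
  rw [UpperHalfPlane.mdifferentiable_iff]
  have h : DifferentiableOn ℂ (thetaC A) {z | 0 < z.im} := by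
    intro z hz
    have hU : IsOpen {w : ℂ | z.im / 2 < w.im} :=
      isOpen_lt continuous_const Complex.continuous_im
    have hd : DifferentiableOn ℂ (thetaC A) {w : ℂ | z.im / 2 < w.im} := by
      refine differentiableOn_tsum_of_summable_norm
        (summable_norm_gTerm hA.pos (z := ((z.im / 2 : ℝ) : ℂ) * I)
          (by simpa using half_pos (show 0 < z.im from hz)) 0) (fun v => ?_) hU
        (fun v w hw => norm_gTerm_le hA.pos hw.le v)
      unfold gTerm
      fun_prop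
    exact (hd.differentiableAt (hU.mem_nhds (show z.im / 2 < z.im from half_lt_self hz))).differentiableWithinAt
  refine h.congr fun z hz => ?_
  simp [theta, UpperHalfPlane.ofComplex_apply_of_im_pos hz]

/-- The limit at `i∞` of a theta series with bounded coefficients. -/
theorem tendsto_gSum {B : Matrix (Fin 4) (Fin 4) ℝ} (hB : B.PosDef) (s : ℝ)
    {C : (Fin 4 → ℤ) → ℂ} {M : ℝ} (hC : ∀ v, ‖C v‖ ≤ M) :
    Tendsto (fun τ : ℍ => ∑' v, C v * gTerm B ((τ : ℂ) + s) 0 v)
      UpperHalfPlane.atImInfty (𝓝 (C 0)) := by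
  classical
  rw [show C 0 = ∑' v : Fin 4 → ℤ, (if v = 0 then C 0 else 0) from
    (tsum_ite_eq (0 : Fin 4 → ℤ) (fun _ => C 0)).symm]
  refine tendsto_tsum_of_dominated_convergence
    ((summable_norm_gTerm hB (z := ((1 : ℝ) : ℂ) * I) (by simp) 0).mul_left M) (fun v => ?_) ?_
  · rcases eq_or_ne v 0 with rfl | hv
    · rw [if_pos rfl]
      have : ∀ τ : ℍ, C 0 * gTerm B ((τ : ℂ) + s) 0 0 = C 0 := fun τ => by
        simp [gTerm, qC, cvec, dotProduct]
      simpa only [this] using tendsto_const_nhds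
    · rw [if_neg hv]
      refine squeeze_zero_norm (a := fun τ : ℍ => M * Real.exp (-π * τ.im *
        qR B (fun i => (v i : ℝ)))) (fun τ => ?_) ?_
      · rw [norm_mul]
        refine mul_le_mul (hC v) (le_of_eq ?_) (norm_nonneg _) ((norm_nonneg _).trans (hC v))
        simp [norm_gTerm]
      · have hpos : 0 < qR B (fun i => (v i : ℝ)) :=
          qR_pos hB fun h => hv (funext fun i => by simpa using congrFun h i)
        have h1 : Tendsto (fun τ : ℍ => τ.im * (π * qR B (fun i => (v i : ℝ))))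
            UpperHalfPlane.atImInfty atTop :=
          tendsto_comap.atTop_mul_const (mul_pos Real.pi_pos hpos)
        have h2 := (Real.tendsto_exp_neg_atTop_nhds_zero.comp h1).const_mul M
        rw [mul_zero] at h2
        refine h2.congr fun τ => ?_
        simp only [Function.comp_apply]
        ring_nf
  · filter_upwards [(UpperHalfPlane.atImInfty_mem _).mpr ⟨1, fun z hz => hz⟩] with τ hτ v
    rw [norm_mul]
    refine mul_le_mul (hC v) (norm_gTerm_le hB ?_ v) (norm_nonneg _) ((norm_nonneg _).trans (hC v))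
    have : (1 : ℝ) ≤ τ.im := hτ
    simpa using this

theorem theta_neg_slash (γ : SL(2, ℤ)) (f : ℍ → ℂ) : f ∣[(2 : ℤ)] (-γ) = f ∣[(2 : ℤ)] γ := by
  funext τ
  have hd : UpperHalfPlane.denom ((-γ : SL(2, ℤ)) : GL (Fin 2) ℝ) τ =
      -UpperHalfPlane.denom (γ : GL (Fin 2) ℝ) τ := by
    simp [UpperHalfPlane.denom]; ring
  rw [ModularForm.SL_slash_apply, ModularForm.SL_slash_apply, ModularGroup.SL_neg_smul, hd,
    Even.neg_zpow (by decide)]

theorem theta_T_zpow (hA : IsLattice N A) (k : ℤ) :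
    theta A ∣[(2 : ℤ)] (ModularGroup.T ^ k) = theta A := by
  funext τ
  rw [ModularForm.slash_action_eq'_iff]
  simp only [ModularGroup.coe_T_zpow]
  simp only [Matrix.of_apply, Matrix.cons_val', Matrix.cons_val_zero, Matrix.cons_val_one,
    Matrix.empty_val', Matrix.cons_val_fin_one, Int.cast_zero, Int.cast_one, zero_mul, zero_add,
    _root_.one_zpow]
  unfold theta thetaC
  rw [ModularGroup.coe_T_zpow_smul_eq, one_mul]
  refine tsum_congr fun v => ?_
  simp only [gTerm, zero_dotProduct, mul_zero, add_zero, qC_cvec_eq hA.evenMatrix]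
  rw [mul_add, add_mul, Complex.exp_add,
    show π * I * (k : ℂ) * ((2 * qPoly A v : ℤ) : ℂ) = ((k * qPoly A v : ℤ) : ℂ) * (2 * π * I) by
      push_cast; ring, Complex.exp_int_mul_two_pi_mul_I, mul_one]

theorem exists_eq_T_zpow {γ : SL(2, ℤ)} (hc : γ 1 0 = 0) :
    ∃ k : ℤ, γ = ModularGroup.T ^ k ∨ γ = -ModularGroup.T ^ k := by
  have had : γ 0 0 * γ 1 1 = 1 := by
    have h := SL_det_eq γ
    rw [hc] at h
    linarith
  rcases Int.eq_one_or_neg_one_of_mul_eq_one' had with (⟨ha, hd⟩ | ⟨ha, hd⟩)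
  · refine ⟨γ 0 1, Or.inl ?_⟩
    ext i j; fin_cases i <;> fin_cases j <;> simp [ha, hc, hd, ModularGroup.coe_T_zpow]
  · refine ⟨-(γ 0 1), Or.inr ?_⟩
    ext i j; fin_cases i <;> fin_cases j <;> simp [ha, hc, hd, ModularGroup.coe_T_zpow]

theorem det_ne_zero (hA : IsLattice N A) : A.det ≠ 0 := by
  intro h
  have h1 := hA.pos.det_pos
  rw [show (realMat A).det = ((A.det : ℤ) : ℝ) from ((Int.castRingHom ℝ).map_det A).symm, h] at h1
  simp at h1

/-- Invariance of the theta series under `Γ₀(N)`. -/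
theorem theta_slash (hA : IsLattice N A) (hN : N ≠ 0) {γ : SL(2, ℤ)}
    (hγ : γ ∈ CongruenceSubgroup.Gamma0 N) : theta A ∣[(2 : ℤ)] γ = theta A := by
  rcases eq_or_ne (γ 1 0) 0 with hc | hc
  · obtain ⟨k, rfl | rfl⟩ := exists_eq_T_zpow hc
    · exact theta_T_zpow hA k
    · rw [theta_neg_slash]; exact theta_T_zpow hA k
  · have hcop : IsCoprime (γ 1 1) (γ 1 0) :=
      ⟨γ 0 0, -γ 0 1, by linear_combination SL_det_eq γ⟩
    obtain ⟨p, hpbig, hp, hpmod⟩ := Nat.forall_exists_prime_gt_and_zmodEq (2 + A.det.natAbs)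
      (q := (γ 1 0).natAbs) (a := γ 1 1) (by simpa using hc)
      (by rw [Int.isCoprime_iff_nat_coprime] at hcop ⊢; simpa [Int.natAbs_abs] using hcop)
    obtain ⟨k, hk⟩ : γ 1 0 ∣ (p : ℤ) - γ 1 1 :=
      Int.natAbs_dvd.mp (Int.ModEq.dvd hpmod.symm)
    have := Fact.mk hp
    set δ := γ * ModularGroup.T ^ k with hδ
    have hδ11 : δ 1 1 = p := by
      simp [hδ, ModularGroup.coe_T_zpow, Matrix.mul_apply, Fin.sum_univ_two]
      linarith
    have hT : ModularGroup.T ^ k ∈ CongruenceSubgroup.Gamma0 N := by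
      rw [CongruenceSubgroup.Gamma0_mem]; simp [ModularGroup.coe_T_zpow]
    have hdet : (A.det : ZMod p) ≠ 0 := by
      rw [Ne, ZMod.intCast_zmod_eq_zero_iff_dvd]
      intro h
      have := Nat.le_of_dvd (Int.natAbs_pos.mpr (det_ne_zero hA)) (Int.natCast_dvd.mp h)
      omega
    have h1 := theta_slash_of_prime hA hN (γ := δ) (mul_mem hγ hT) (p := p) (by omega) hdet hδ11
    have h2 : γ = δ * ModularGroup.T ^ (-k) := by rw [hδ, _root_.zpow_neg, mul_inv_cancel_right]
    rw [h2, SlashAction.slash_mul, h1, theta_T_zpow hA]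

/-- The constant term at the cusp `γ ∞`. -/
theorem tendsto_theta_slash (hA : IsLattice N A) (γ : SL(2, ℤ)) {c : ℕ} [NeZero c]
    (hc : γ 1 0 = c) :
    Tendsto (theta A ∣[(2 : ℤ)] γ) UpperHalfPlane.atImInfty
      (𝓝 (-((Real.sqrt (realMat A).det : ℂ) * (c : ℂ) ^ 2)⁻¹ * gauss A c (γ 0 0))) := by
  have hc0 : (c : ℂ) ≠ 0 := Nat.cast_ne_zero.mpr (NeZero.ne c)
  have key : ∀ τ : ℍ, (theta A ∣[(2 : ℤ)] γ) τ = -((Real.sqrt (realMat A).det : ℂ) * (c : ℂ) ^ 2)⁻¹ *
      ∑' v : Fin 4 → ℤ, phase A c (γ 0 0) v *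
        gTerm (realMat A)⁻¹ ((τ : ℂ) + (((γ 1 1 : ℝ) / c : ℝ) : ℂ)) 0 v := by
    intro τ
    set E : ℂ := (γ 1 0 : ℂ) * τ + γ 1 1 with hE
    have hE0 : E ≠ 0 := SL_denom_ne_zero γ τ
    set σ : ℂ := ((γ • τ : ℍ) : ℂ) - (γ 0 0 : ℂ) / c with hσdef
    have hσim : 0 < σ.im := by
      have h : σ.im = (γ • τ : ℍ).im := by simp [hσdef]
      rw [h]; exact (γ • τ).im_pos
    have hσ : σ = -1 / (c * E) := by
      have h := congrArg (fun z : ℤ => (z : ℂ)) (SL_det_eq γ)
      simp only [Int.cast_sub, Int.cast_mul, Int.cast_one, hc, Int.cast_natCast] at h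
      rw [hσdef, coe_SL_smul, ← hE, div_sub_div _ _ hE0 hc0, mul_comm E (c : ℂ)]
      congr 1
      rw [hE, hc]
      push_cast
      linear_combination -1 * h
    rw [ModularForm.SL_slash_apply, show theta A (γ • τ) = thetaC A ((γ 0 0 : ℂ) / c + σ) by
      unfold theta; rw [hσdef, add_sub_cancel], thetaC_expansion hA c (γ 0 0) hσim]
    have hden : UpperHalfPlane.denom (γ : GL (Fin 2) ℝ) τ = E := by
      simp [hE, UpperHalfPlane.denom]
    have hterm : ∀ v : Fin 4 → ℤ,
        phase A c (γ 0 0) v * cexp (-π * I / ((c : ℂ) ^ 2 * σ) * qC (realMat A)⁻¹ (cvec v)) =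
        phase A c (γ 0 0) v *
          gTerm (realMat A)⁻¹ ((τ : ℂ) + (((γ 1 1 : ℝ) / c : ℝ) : ℂ)) 0 v := by
      intro v
      simp only [gTerm, zero_dotProduct, mul_zero, add_zero]
      congr 3
      rw [hσ, hE, hc]
      push_cast
      have : (c : ℂ) * τ + γ 1 1 ≠ 0 := by
        have := hE0; rw [hE, hc] at this; simpa using this
      field_simp
    rw [tsum_congr hterm, hden, _root_.zpow_neg, zpow_two, hσ]
    field_simp
  rw [show (theta A ∣[(2 : ℤ)] γ) = _ from funext key, ← phase_zero]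
  exact (tendsto_gSum hA.pos.inv _ (norm_phase_le A c (γ 0 0))).const_mul _

theorem tendsto_theta (hA : IsLattice N A) :
    Tendsto (theta A) UpperHalfPlane.atImInfty (𝓝 1) := by
  have h := tendsto_gSum hA.pos 0 (C := fun _ => 1) (M := 1) (fun _ => by simp)
  simpa [theta, thetaC] using! h

/-- An element of `SL₂(ℤ)` fixes `∞` or one of `±γ` has positive lower left entry. -/
theorem exists_sign (γ : SL(2, ℤ)) (hc : γ 1 0 ≠ 0) (f : ℍ → ℂ) :
    ∃ δ : SL(2, ℤ), f ∣[(2 : ℤ)] γ = f ∣[(2 : ℤ)] δ ∧ ∃ c : ℕ, 0 < c ∧ δ 1 0 = c := by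
  rcases lt_or_gt_of_ne hc with h | h
  · exact ⟨-γ, (theta_neg_slash γ f).symm, (-γ 1 0).toNat, by omega, by simp; omega⟩
  · exact ⟨γ, rfl, (γ 1 0).toNat, by omega, by omega⟩

theorem theta_slash_bounded (hA : IsLattice N A) (γ : SL(2, ℤ)) :
    UpperHalfPlane.IsBoundedAtImInfty (theta A ∣[(2 : ℤ)] γ) := by
  rcases eq_or_ne (γ 1 0) 0 with hc | hc
  · obtain ⟨k, hk | hk⟩ := exists_eq_T_zpow hc
    · rw [hk, theta_T_zpow hA]; exact (tendsto_theta hA).isBigO_one ℝ
    · rw [hk, theta_neg_slash, theta_T_zpow hA]; exact (tendsto_theta hA).isBigO_one ℝ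
  · obtain ⟨δ, hδ, c, hc0, hδc⟩ := exists_sign γ hc (theta A)
    have := NeZero.of_pos hc0
    rw [hδ]
    exact (tendsto_theta_slash hA δ hδc).isBigO_one ℝ

/-- The theta series as a modular form of weight two. -/
noncomputable def thetaForm [NeZero N] (hA : IsLattice N A) :
    ModularForm (CongruenceSubgroup.Gamma0 N) 2 where
  toFun := theta A
  slash_action_eq' g hg := by
    obtain ⟨γ, hγ, rfl⟩ := hg
    exact theta_slash hA (NeZero.ne N) hγ
  holo' := mdifferentiable_theta hA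
  bdd_at_cusps' {c} hc := by
    rw [Subgroup.IsArithmetic.isCusp_iff_isCusp_SL2Z] at hc
    rw [OnePoint.isBoundedAt_iff_forall_SL2Z hc]
    exact fun γ _ => theta_slash_bounded hA γ

theorem coe_thetaForm [NeZero N] (hA : IsLattice N A) : ⇑(thetaForm hA) = theta A := rfl

/-- The representation number `#{v | Q(v) = m}`. -/
noncomputable def repCount (A : Matrix (Fin 4) (Fin 4) ℤ) (m : ℕ) : ℕ :=
  Nat.card {v : Fin 4 → ℤ // qPoly A v = (m : ℤ)}

theorem qPoly_nonneg (hA : IsLattice N A) (v : Fin 4 → ℤ) : 0 ≤ qPoly A v := by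
  have h := qC_cvec_eq hA.evenMatrix v
  rw [qC_cvec] at h
  have h' : qR (realMat A) (fun i => (v i : ℝ)) = ((2 * qPoly A v : ℤ) : ℝ) := by exact_mod_cast h
  have h1 := qR_nonneg hA.pos (fun i => (v i : ℝ))
  rw [h'] at h1
  have h2 : (0 : ℤ) ≤ 2 * qPoly A v := by exact_mod_cast h1
  omega

theorem finite_rep (hA : IsLattice N A) (m : ℕ) :
    Finite {v : Fin 4 → ℤ // qPoly A v = (m : ℤ)} := by
  obtain ⟨δ, hδ, hle⟩ := exists_le_qR hA.pos
  let K : ℤ := ⌈2 * (m : ℝ) / δ⌉ + 1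
  have hsub : {v : Fin 4 → ℤ | qPoly A v = (m : ℤ)} ⊆ Set.pi Set.univ (fun _ => Set.Icc (-K) K) := by
    intro v hv i _
    have h := qC_cvec_eq hA.evenMatrix v
    rw [qC_cvec, show qPoly A v = (m : ℤ) from hv] at h
    have h' : qR (realMat A) (fun i => (v i : ℝ)) = 2 * (m : ℝ) := by exact_mod_cast h
    have h1 := hle (fun i => (v i : ℝ))
    rw [h', ← le_div_iff₀' hδ] at h1
    have h2 : (v i : ℝ) ^ 2 ≤ ⌈2 * (m : ℝ) / δ⌉ :=
      (Finset.single_le_sum (f := fun i => (v i : ℝ) ^ 2) (fun j _ => sq_nonneg _)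
        (Finset.mem_univ i)).trans (h1.trans (Int.le_ceil _))
    have h3 : v i ^ 2 ≤ ⌈2 * (m : ℝ) / δ⌉ := by exact_mod_cast h2
    refine Set.mem_Icc.mpr ⟨?_, ?_⟩ <;> nlinarith [Int.le_self_sq (v i), Int.le_self_sq (-v i)]
  exact ((Set.Finite.pi fun _ => Set.finite_Icc _ _).subset hsub).to_subtype

/-- The `q`-expansion of the theta series. -/
theorem hasSum_theta (hA : IsLattice N A) (τ : ℍ) :
    HasSum (fun m : ℕ => (repCount A m : ℂ) • Function.Periodic.qParam 1 (τ : ℂ) ^ m)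
      (theta A τ) := by
  have hs : HasSum (fun v => gTerm (realMat A) (τ : ℂ) 0 v) (theta A τ) :=
    (summable_norm_iff.mp (summable_norm_gTerm hA.pos τ.im_pos 0)).hasSum
  have hq : ∀ v, gTerm (realMat A) (τ : ℂ) 0 v =
      Function.Periodic.qParam 1 (τ : ℂ) ^ (qPoly A v).toNat := fun v => by
    simp only [gTerm, zero_dotProduct, mul_zero, add_zero, qC_cvec_eq hA.evenMatrix,
      Function.Periodic.qParam, ← Complex.exp_nat_mul]
    congr 1
    have h : (((qPoly A v).toNat : ℤ) : ℂ) = ((qPoly A v : ℤ) : ℂ) := by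
      rw [Int.toNat_of_nonneg (qPoly_nonneg hA v)]
    push_cast at h ⊢
    rw [h]
    ring
  simp only [hq] at hs
  rw [← (Equiv.sigmaFiberEquiv fun v => (qPoly A v).toNat).hasSum_iff] at hs
  refine hs.sigma fun m => ?_
  have := finite_rep hA m
  have he : {v : Fin 4 → ℤ // (qPoly A v).toNat = m} ≃ {v : Fin 4 → ℤ // qPoly A v = (m : ℤ)} :=
    Equiv.subtypeEquivRight fun v => by have := qPoly_nonneg hA v; omega
  have := Finite.of_equiv _ he.symm
  have := Fintype.ofFinite {v : Fin 4 → ℤ // (qPoly A v).toNat = m}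
  have h := hasSum_fintype (fun v : {v : Fin 4 → ℤ // (qPoly A v).toNat = m} =>
    Function.Periodic.qParam 1 (τ : ℂ) ^ (qPoly A v.1).toNat)
  have hcard : repCount A m = Fintype.card {v : Fin 4 → ℤ // (qPoly A v).toNat = m} := by
    rw [repCount, ← Nat.card_congr he, Nat.card_eq_fintype_card]
  rw [hcard]
  convert h using 1
  · funext v; simp [Equiv.sigmaFiberEquiv, v.2]
  · rw [Finset.sum_congr rfl (g := fun _ => Function.Periodic.qParam 1 (τ : ℂ) ^ m)
      (fun v _ => by rw [v.2])]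
    simp

theorem qCoeff_theta [NeZero N] (hA : IsLattice N A) (m : ℕ) :
    ModularFormClass.qCoeff (thetaForm hA) m = repCount A m :=
  (ModularFormClass.qExpansion_coeff_unique (f := thetaForm hA) one_pos
    (CongruenceSubgroup.one_mem_strictPeriods_Gamma0 N) (fun τ => hasSum_theta hA τ) m).symm

end Fermat.Agent.Theta
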