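import Mathlib

/-!
The inversion formula for the theta series of a positive definite real quadratic form, with a
complex linear term, by induction on the dimension from the one variable Jacobi theta function.
-/

set_option autoImplicit false

open Complex Matrix
open scoped Real ComplexOrder

namespace Fermat.Agent.Theta

variable {n : ℕ}

/-- The quadratic form of a real matrix, on complex vectors. -/
def qC (A : Matrix (Fin n) (Fin n) ℝ) (w : Fin n → ℂ) : ℂ :=
  w ⬝ᵥ ((A.map ((↑) : ℝ → ℂ)) *ᵥ w)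

/-- The quadratic form of a real matrix. -/
def qR (A : Matrix (Fin n) (Fin n) ℝ) (w : Fin n → ℝ) : ℝ :=
  w ⬝ᵥ (A *ᵥ w)

/-- An integral vector as a complex vector. -/
def cvec (v : Fin n → ℤ) : Fin n → ℂ := fun i => (v i : ℂ)

/-- The summand of the theta series. -/
noncomputable def gTerm (A : Matrix (Fin n) (Fin n) ℝ) (z : ℂ) (u : Fin n → ℂ)
    (w : Fin n → ℤ) : ℂ :=
  cexp (π * I * z * qC A (cvec w) + 2 * π * I * (u ⬝ᵥ cvec w))

/-- The summand on the other side of the inversion formula. -/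
noncomputable def gDual (A : Matrix (Fin n) (Fin n) ℝ) (z : ℂ) (u : Fin n → ℂ)
    (v : Fin n → ℤ) : ℂ :=
  cexp (-π * I / z * qC A⁻¹ (cvec v + u))

theorem qC_ofReal (A : Matrix (Fin n) (Fin n) ℝ) (x : Fin n → ℝ) :
    qC A (fun i => (x i : ℂ)) = (qR A x : ℂ) := by
  simp [qC, qR, dotProduct, mulVec]

theorem qC_cvec (A : Matrix (Fin n) (Fin n) ℝ) (v : Fin n → ℤ) :
    qC A (cvec v) = (qR A (fun i => (v i : ℝ)) : ℂ) := by
  rw [← qC_ofReal]; unfold cvec; norm_cast

theorem qR_pos {A : Matrix (Fin n) (Fin n) ℝ} (hA : A.PosDef) {x : Fin n → ℝ} (hx : x ≠ 0) :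
    0 < qR A x := by
  simpa [qR] using hA.dotProduct_mulVec_pos hx

theorem symm_apply {A : Matrix (Fin n) (Fin n) ℝ} (hA : A.PosDef) (i j : Fin n) :
    A i j = A j i := by
  simpa using hA.1.apply j i

theorem qC_add {A : Matrix (Fin n) (Fin n) ℝ} (hA : A.PosDef) (x y : Fin n → ℂ) :
    qC A (x + y) = qC A x + 2 * (((A.map ((↑) : ℝ → ℂ)) *ᵥ y) ⬝ᵥ x) + qC A y := by
  have hs : (A.map ((↑) : ℝ → ℂ)).IsSymm := by
    ext i j
    simp [symm_apply hA i j]
  have h2 : y ⬝ᵥ ((A.map ((↑) : ℝ → ℂ)) *ᵥ x) = ((A.map ((↑) : ℝ → ℂ)) *ᵥ y) ⬝ᵥ x := by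
    rw [dotProduct_mulVec, ← mulVec_transpose, hs.eq]
  simp only [qC, mulVec_add, add_dotProduct, dotProduct_add, h2]
  rw [dotProduct_comm x ((A.map ((↑) : ℝ → ℂ)) *ᵥ y)]
  ring

/-- The quadratic form dominates the sum of squares. -/
theorem exists_le_qR {A : Matrix (Fin n) (Fin n) ℝ} (hA : A.PosDef) :
    ∃ δ : ℝ, 0 < δ ∧ ∀ x : Fin n → ℝ, δ * ∑ i, x i ^ 2 ≤ qR A x := by
  rcases isEmpty_or_nonempty (Fin n) with he | hne
  · exact ⟨1, one_pos, fun x => by simp [qR, dotProduct]⟩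
  · have hcpt : IsCompact (Metric.sphere (0 : Fin n → ℝ) 1) := isCompact_sphere _ _
    obtain ⟨x0, hx0, hmin⟩ := hcpt.exists_isMinOn
      (NormedSpace.sphere_nonempty.mpr zero_le_one) (f := qR A)
      (by unfold qR dotProduct mulVec; exact Continuous.continuousOn (by fun_prop))
    have hx0' : x0 ≠ 0 := by
      intro h; simp [h] at hx0
    refine ⟨qR A x0 / (n + 1), div_pos (qR_pos hA hx0') (by positivity), fun x => ?_⟩
    rcases eq_or_ne x 0 with rfl | hx
    · simp [qR]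
    have hn : 0 < ‖x‖ := norm_pos_iff.mpr hx
    have hle : qR A x0 ≤ qR A (‖x‖⁻¹ • x) :=
      hmin (by simp [norm_smul, hn.ne'])
    have hscale : qR A (‖x‖⁻¹ • x) = (‖x‖⁻¹) ^ 2 * qR A x := by
      simp [qR, mulVec_smul, sq, mul_assoc]
    have hsum : ∑ i, x i ^ 2 ≤ (n + 1) * ‖x‖ ^ 2 := by
      calc ∑ i, x i ^ 2 ≤ ∑ _i : Fin n, ‖x‖ ^ 2 := Finset.sum_le_sum fun i _ => by
            rw [← sq_abs]; exact pow_le_pow_left₀ (abs_nonneg _) (norm_le_pi_norm x i) 2
        _ ≤ (n + 1) * ‖x‖ ^ 2 := by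
            simp only [Finset.sum_const, Finset.card_univ, Fintype.card_fin, nsmul_eq_mul]
            nlinarith [sq_nonneg ‖x‖]
    rw [hscale, inv_pow, inv_mul_eq_div, le_div_iff₀ (by positivity)] at hle
    calc qR A x0 / (n + 1) * ∑ i, x i ^ 2 ≤ qR A x0 / (n + 1) * ((n + 1) * ‖x‖ ^ 2) :=
          mul_le_mul_of_nonneg_left hsum (div_nonneg (qR_pos hA hx0').le (by positivity))
      _ = qR A x0 * ‖x‖ ^ 2 := by field_simp
      _ ≤ qR A x := hle

theorem summable_pi_prod : ∀ {n : ℕ} (f : Fin n → ℤ → ℝ), (∀ i k, 0 ≤ f i k) →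
    (∀ i, Summable (f i)) → Summable (fun w : Fin n → ℤ => ∏ i, f i (w i))
  | 0, _, _, _ => Summable.of_finite
  | n + 1, f, h0, hf => by
    have hrest := summable_pi_prod (fun i => f i.succ) (fun i k => h0 _ k) (fun i => hf _)
    have h := Summable.mul_of_nonneg (hf 0) hrest (h0 0)
      (fun w => Finset.prod_nonneg fun i _ => h0 _ _)
    rw [← (Fin.consEquiv fun _ : Fin (n + 1) => ℤ).summable_iff]
    refine h.congr fun p => ?_
    simp [Function.comp, Fin.prod_univ_succ]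

theorem norm_gTerm (A : Matrix (Fin n) (Fin n) ℝ) (z : ℂ) (u : Fin n → ℂ) (w : Fin n → ℤ) :
    ‖gTerm A z u w‖ = Real.exp (-π * z.im * qR A (fun i => (w i : ℝ))
      - 2 * π * ∑ i, (u i).im * w i) := by
  rw [gTerm, Complex.norm_exp, qC_cvec]
  congr 1
  simp [cvec, dotProduct, mul_re, mul_im, Complex.re_sum, Complex.im_sum]
  ring

/-- The theta series converges absolutely. -/
theorem summable_norm_gTerm {A : Matrix (Fin n) (Fin n) ℝ} (hA : A.PosDef) {z : ℂ}
    (hz : 0 < z.im) (u : Fin n → ℂ) : Summable (fun w => ‖gTerm A z u w‖) := by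
  obtain ⟨δ, hδ, hle⟩ := exists_le_qR hA
  let f : Fin n → ℤ → ℝ := fun i k =>
    Real.exp (-π * ((δ * z.im) * k ^ 2 - 2 * |(u i).im| * |k|))
  have hf : ∀ i, Summable (f i) := fun i => by
    simpa [f] using summable_pow_mul_jacobiTheta₂_term_bound |(u i).im|
      (mul_pos hδ hz) 0
  refine (summable_pi_prod f (fun i k => (Real.exp_pos _).le) hf).of_nonneg_of_le
    (fun w => norm_nonneg _) fun w => ?_
  rw [norm_gTerm, ← Real.exp_sum, Real.exp_le_exp]
  have h1 : π * z.im * (δ * ∑ i, (w i : ℝ) ^ 2) ≤ π * z.im * qR A (fun i => (w i : ℝ)) :=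
    mul_le_mul_of_nonneg_left (hle _) (mul_pos Real.pi_pos hz).le
  have h2 : ∀ i, -(|(u i).im| * |(w i : ℝ)|) ≤ (u i).im * w i := fun i => by
    rw [← abs_mul]; exact neg_abs_le _
  have h3 : 2 * π * ∑ i, -(|(u i).im| * |(w i : ℝ)|) ≤ 2 * π * ∑ i, (u i).im * w i :=
    mul_le_mul_of_nonneg_left (Finset.sum_le_sum fun i _ => h2 i) (by positivity)
  simp only [Finset.mul_sum] at h1 h3 ⊢
  calc _ ≤ -(∑ i, π * z.im * (δ * (w i : ℝ) ^ 2))
        - ∑ i, 2 * π * -(|(u i).im| * |(w i : ℝ)|) := by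
        simp only [Finset.mul_sum] at *
        linarith
    _ = _ := by
        rw [← Finset.sum_neg_distrib, ← Finset.sum_sub_distrib]
        refine Finset.sum_congr rfl fun i _ => ?_
        push_cast
        ring

theorem im_neg_inv_pos {z : ℂ} (hz : 0 < z.im) : 0 < (-z⁻¹).im := by
  have h0 : z ≠ 0 := fun h => by simp [h] at hz
  simpa [Complex.inv_im, neg_div] using div_pos hz (normSq_pos.mpr h0)

theorem gDual_eq {A : Matrix (Fin n) (Fin n) ℝ} (hA : A.PosDef) (z : ℂ) (u : Fin n → ℂ)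
    (v : Fin n → ℤ) :
    gDual A z u v = cexp (-π * I / z * qC A⁻¹ u) *
      gTerm A⁻¹ (-z⁻¹) (-z⁻¹ • ((A⁻¹.map ((↑) : ℝ → ℂ)) *ᵥ u)) v := by
  rw [gDual, gTerm, ← Complex.exp_add, qC_add hA.inv, smul_dotProduct, smul_eq_mul]
  congr 1
  ring

theorem summable_norm_gDual {A : Matrix (Fin n) (Fin n) ℝ} (hA : A.PosDef) {z : ℂ}
    (hz : 0 < z.im) (u : Fin n → ℂ) : Summable (fun v => ‖gDual A z u v‖) := by
  simp only [gDual_eq hA, norm_mul]
  exact (summable_norm_gTerm hA.inv (im_neg_inv_pos hz) _).mul_left _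

/-- One step of completing the square. -/
noncomputable def schur (A : Matrix (Fin (n + 1)) (Fin (n + 1)) ℝ) : Matrix (Fin n) (Fin n) ℝ :=
  Matrix.of fun i j => A i.succ j.succ - A 0 i.succ * A 0 j.succ / A 0 0

theorem diag_zero_pos {A : Matrix (Fin (n + 1)) (Fin (n + 1)) ℝ} (hA : A.PosDef) : 0 < A 0 0 :=
  hA.diag_pos

theorem qC_cons {A : Matrix (Fin (n + 1)) (Fin (n + 1)) ℝ} (hA : A.PosDef) (x : ℂ)
    (y : Fin n → ℂ) :
    qC A (Fin.cons x y) = A 0 0 * (x + (∑ i, (A 0 i.succ : ℂ) * y i) / A 0 0) ^ 2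
      + qC (schur A) y := by
  have ha : (A 0 0 : ℂ) ≠ 0 := by exact_mod_cast (diag_zero_pos hA).ne'
  have hT : ∑ i, ∑ j, y i * (((schur A i j : ℝ) : ℂ) * y j)
      = (∑ i, ∑ j, y i * ((A i.succ j.succ : ℂ) * y j))
        - (∑ i, (A 0 i.succ : ℂ) * y i) ^ 2 / A 0 0 := by
    rw [sq, Finset.sum_mul_sum, Finset.sum_div]
    simp_rw [Finset.sum_div, ← Finset.sum_sub_distrib]
    refine Finset.sum_congr rfl fun i _ => Finset.sum_congr rfl fun j _ => ?_
    simp [schur]
    ring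
  simp only [qC, dotProduct, mulVec, Matrix.map_apply, Fin.sum_univ_succ, Fin.cons_zero,
    Fin.cons_succ, mul_add, Finset.sum_add_distrib, Finset.mul_sum]
  rw [hT]
  have hA' : ∀ i : Fin n, A i.succ 0 = A 0 i.succ := fun i => symm_apply hA _ _
  simp only [hA', ← mul_assoc]
  simp only [mul_right_comm _ _ x, mul_comm (y _) (A 0 _ : ℂ)]
  have e : ∑ i, x * (A 0 (Fin.succ i) : ℂ) * y i = x * ∑ i, (A 0 i.succ : ℂ) * y i := by
    simp [Finset.mul_sum, mul_assoc]
  field_simp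
  rw [e]
  ring

theorem schur_posDef {A : Matrix (Fin (n + 1)) (Fin (n + 1)) ℝ} (hA : A.PosDef) :
    (schur A).PosDef := by
  refine Matrix.PosDef.of_dotProduct_mulVec_pos ?_ fun y hy => ?_
  · ext i j
    simp [schur, symm_apply hA j.succ i.succ, mul_comm]
  · have hz : (Fin.cons (-(∑ i, A 0 i.succ * y i) / A 0 0) y : Fin (n + 1) → ℝ) ≠ 0 := by
      intro h
      exact hy (funext fun i => by simpa using congrFun h i.succ)
    have h := qR_pos hA hz
    have h1 := qC_cons hA ((-(∑ i, A 0 i.succ * y i) / A 0 0 : ℝ) : ℂ) (fun i => (y i : ℂ))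
    have h2 : (Fin.cons ((-(∑ i, A 0 i.succ * y i) / A 0 0 : ℝ) : ℂ) (fun i => (y i : ℂ))
        : Fin (n + 1) → ℂ)
        = fun i => ((Fin.cons (-(∑ i, A 0 i.succ * y i) / A 0 0) y : Fin (n + 1) → ℝ) i : ℂ) := by
      ext i; refine Fin.cases ?_ ?_ i <;> simp
    rw [h2, qC_ofReal, qC_ofReal] at h1
    have h3 : (((-(∑ i, A 0 i.succ * y i) / A 0 0 : ℝ)) : ℂ) +
        (∑ i, (A 0 i.succ : ℂ) * (y i : ℂ)) / A 0 0 = 0 := by
      push_cast; ring
    rw [h3, zero_pow two_ne_zero, mul_zero, zero_add, Complex.ofReal_inj] at h1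
    rw [h1] at h
    simpa [qR] using h

theorem det_schur {A : Matrix (Fin (n + 1)) (Fin (n + 1)) ℝ} (hA : A.PosDef) :
    A.det = A 0 0 * (schur A).det := by
  let L : Matrix (Fin (n + 1)) (Fin (n + 1)) ℝ :=
    Matrix.of fun i j => if i = j then 1 else if i = 0 then -(A 0 j) / A 0 0 else 0
  have ha := (diag_zero_pos hA).ne'
  have hL : L.det = 1 := by
    rw [Matrix.det_succ_column_zero, Fin.sum_univ_succ]
    have : L.submatrix Fin.succ Fin.succ = 1 := by
      ext i j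
      simp [L, Matrix.one_apply]
    simp [Fin.succAbove_zero, this, show L 0 0 = 1 by simp [L],
      show ∀ i : Fin n, L i.succ 0 = 0 by intro i; simp [L]]
  have hAL0 : ∀ j : Fin n, (A * L) 0 j.succ = 0 := fun j => by
    simp [Matrix.mul_apply, Fin.sum_univ_succ, L, Fin.succ_ne_zero, (Fin.succ_ne_zero _).symm]
    field_simp
    ring
  have hALs : (A * L).submatrix Fin.succ Fin.succ = schur A := by
    ext i j
    simp [Matrix.mul_apply, Fin.sum_univ_succ, L, schur, Fin.succ_ne_zero,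
      (Fin.succ_ne_zero _).symm, symm_apply hA i.succ 0]
    ring
  have h00 : (A * L) 0 0 = A 0 0 := by
    simp [Matrix.mul_apply, Fin.sum_univ_succ, L, Fin.succ_ne_zero]
  calc A.det = (A * L).det := by rw [Matrix.det_mul, hL, mul_one]
    _ = _ := by
      rw [Matrix.det_succ_row_zero, Fin.sum_univ_succ]
      simp [hAL0, hALs, h00, Fin.succAbove_zero]

theorem qC_inv_cons {A : Matrix (Fin (n + 1)) (Fin (n + 1)) ℝ} (hA : A.PosDef) (x : ℂ)
    (y : Fin n → ℂ) :
    qC A⁻¹ (Fin.cons x y) =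
      x ^ 2 / A 0 0 + qC (schur A)⁻¹ (fun i => y i - (A 0 i.succ : ℂ) * x / A 0 0) := by
  have inv_map : ∀ {m : ℕ} {B : Matrix (Fin m) (Fin m) ℝ}, B.PosDef →
      (B.map ((↑) : ℝ → ℂ)) * (B⁻¹.map ((↑) : ℝ → ℂ)) = 1 := fun {m} {B} hB => by
    have h := congrArg (fun M => M.map Complex.ofRealHom)
      (Matrix.mul_nonsing_inv B ((Matrix.isUnit_iff_isUnit_det B).mp hB.isUnit))
    rw [Matrix.map_mul] at h
    exact h.trans (Matrix.map_one _ (map_zero _) (map_one _))
  have inv_map' : ∀ {m : ℕ} {B : Matrix (Fin m) (Fin m) ℝ}, B.PosDef →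
      (B⁻¹.map ((↑) : ℝ → ℂ)) * (B.map ((↑) : ℝ → ℂ)) = 1 := fun {m} {B} hB =>
    mul_eq_one_comm.mp (inv_map hB)
  set w : Fin (n + 1) → ℂ := (A⁻¹.map ((↑) : ℝ → ℂ)) *ᵥ (Fin.cons x y) with hw
  have hAw : (A.map ((↑) : ℝ → ℂ)) *ᵥ w = Fin.cons x y := by
    rw [hw, mulVec_mulVec, inv_map hA, one_mulVec]
  have hq : qC A⁻¹ (Fin.cons x y) = qC A w := by
    simp only [qC]
    rw [hAw, ← hw, dotProduct_comm]
  have hx : x = A 0 0 * w 0 + ∑ j : Fin n, (A 0 j.succ : ℂ) * w j.succ := by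
    have := congrFun hAw 0
    simpa [mulVec, dotProduct, Fin.sum_univ_succ] using this.symm
  have ha : (A 0 0 : ℂ) ≠ 0 := by exact_mod_cast (diag_zero_pos hA).ne'
  have hS : (schur A).map ((↑) : ℝ → ℂ) *ᵥ (fun j => w j.succ)
      = fun i => y i - (A 0 i.succ : ℂ) * x / A 0 0 := by
    funext i
    have := congrFun hAw i.succ
    simp only [mulVec, dotProduct, Fin.sum_univ_succ, Fin.cons_succ, Matrix.map_apply,
      symm_apply hA i.succ 0] at this
    simp only [mulVec, dotProduct, Matrix.map_apply, schur, Matrix.of_apply, Complex.ofReal_sub,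
      Complex.ofReal_mul, Complex.ofReal_div, sub_mul, Finset.sum_sub_distrib]
    rw [hx, ← this]
    have : ∑ j : Fin n, (A 0 i.succ : ℂ) * (A 0 j.succ : ℂ) / A 0 0 * w j.succ
        = (A 0 i.succ : ℂ) / A 0 0 * ∑ j : Fin n, (A 0 j.succ : ℂ) * w j.succ := by
      rw [Finset.mul_sum]; exact Finset.sum_congr rfl fun j _ => by ring
    rw [this]
    field_simp
    ring
  have hw' : w = Fin.cons (w 0) (fun j => w j.succ) := (Fin.cons_self_tail w).symm
  rw [hq, hw', qC_cons hA]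
  have hinv : qC (schur A)⁻¹ (fun i => y i - (A 0 i.succ : ℂ) * x / A 0 0)
      = qC (schur A) (fun j => w j.succ) := by
    simp only [qC]
    rw [← hS, mulVec_mulVec, inv_map' (schur_posDef hA), one_mulVec, dotProduct_comm]
  rw [hinv, hx]
  field_simp

/-- The one variable inversion formula in the form used in the induction. -/
theorem hasSum_gauss_line {a : ℝ} (ha : 0 < a) {z : ℂ} (hz : 0 < z.im) (s : ℂ) :
    HasSum (fun k : ℤ => cexp (-π * I * (s + k) ^ 2 / (a * z)))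
      (((Real.sqrt a : ℂ) * (-I * z) ^ (1 / 2 : ℂ)) * jacobiTheta₂ s (a * z)) := by
  have h0 : z ≠ 0 := fun h => by simp [h] at hz
  have haz : 0 < ((a : ℂ) * z).im := by simpa using mul_pos ha hz
  have haz0 : (a : ℂ) * z ≠ 0 := mul_ne_zero (by exact_mod_cast ha.ne') h0
  have him : 0 < (-1 / ((a : ℂ) * z)).im := by
    simpa [neg_div] using im_neg_inv_pos haz
  have hIz : -I * z ≠ 0 := mul_ne_zero (neg_ne_zero.mpr I_ne_zero) h0
  have hIaz : -I * ((a : ℂ) * z) ≠ 0 := mul_ne_zero (neg_ne_zero.mpr I_ne_zero) haz0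
  have hsqrt : (-I * ((a : ℂ) * z)) ^ (1 / 2 : ℂ) =
      (Real.sqrt a : ℂ) * (-I * z) ^ (1 / 2 : ℂ) := by
    rw [cpow_def_of_ne_zero hIaz, cpow_def_of_ne_zero hIz,
      show -I * ((a : ℂ) * z) = (a : ℂ) * (-I * z) by ring, Complex.log_ofReal_mul ha hIz,
      add_mul, Complex.exp_add]
    congr 1
    rw [Real.sqrt_eq_rpow, Real.rpow_def_of_pos ha]
    push_cast
    ring_nf
  have hne : (-I * ((a : ℂ) * z)) ^ (1 / 2 : ℂ) ≠ 0 := by
    simp [cpow_eq_zero_iff, ha.ne', h0]
  have h := ((hasSum_jacobiTheta₂_term (s / (a * z)) him).mul_left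
    (cexp (-π * I * s ^ 2 / (a * z))))
  rw [← (Equiv.neg ℤ).hasSum_iff] at h
  have hval : ((Real.sqrt a : ℂ) * (-I * z) ^ (1 / 2 : ℂ)) * jacobiTheta₂ s (a * z) =
      cexp (-π * I * s ^ 2 / (a * z)) * jacobiTheta₂ (s / (a * z)) (-1 / (a * z)) := by
    rw [← hsqrt, jacobiTheta₂_functional_equation s ((a : ℂ) * z), ← mul_assoc, ← mul_assoc,
      one_div ((-I * ((a : ℂ) * z)) ^ (1 / 2 : ℂ)), mul_inv_cancel₀ hne, one_mul]
  rw [hval]
  refine h.congr_fun fun k => ?_
  simp only [Function.comp_apply, Equiv.neg_apply, jacobiTheta₂_term, ← Complex.exp_add]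
  congr 1
  push_cast
  field_simp
  ring

/-- The inversion formula for theta series of positive definite forms. -/
theorem tsum_gTerm : ∀ {n : ℕ} {A : Matrix (Fin n) (Fin n) ℝ}, A.PosDef → ∀ {z : ℂ}, 0 < z.im →
    ∀ u : Fin n → ℂ, ∑' w, gTerm A z u w =
      ((Real.sqrt A.det : ℂ) * ((-I * z) ^ (1 / 2 : ℂ)) ^ n)⁻¹ * ∑' v, gDual A z u v
  | 0, A, _, z, _, u => by
    rw [tsum_eq_single 0 (fun b hb => absurd (Subsingleton.elim b 0) hb),
      tsum_eq_single 0 (fun b hb => absurd (Subsingleton.elim b 0) hb)]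
    simp [gTerm, gDual, qC, dotProduct]
  | n + 1, A, hA, z, hz, u => by
    have hS := schur_posDef hA
    have ha : 0 < A 0 0 := diag_zero_pos hA
    have h0 : z ≠ 0 := fun h => by simp [h] at hz
    set a : ℝ := A 0 0 with hadef
    have ha0 : (a : ℂ) ≠ 0 := by exact_mod_cast ha.ne'
    set r : ℂ := (-I * z) ^ (1 / 2 : ℂ) with hr
    have hr0 : r ≠ 0 := by
      rw [hr, Ne, cpow_eq_zero_iff]; simp [h0]
    have hsa : (Real.sqrt a : ℂ) ≠ 0 := by exact_mod_cast (Real.sqrt_pos.mpr ha).ne'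
    let u0 : ℂ := u 0
    let ut : Fin n → ℂ := fun i => u i.succ
    let shift : ℂ → Fin n → ℂ := fun t i => ut i - (A 0 i.succ : ℂ) * t / a
    let lin : (Fin n → ℤ) → ℂ := fun w => ∑ i, (A 0 i.succ : ℂ) * cvec w i
    let h : ℤ → ℂ := fun k => cexp (-π * I * (u0 + k) ^ 2 / (a * z))
    let F : (Fin n → ℤ) × ℤ → ℂ := fun p => h p.2 * gTerm (schur A) z (shift (u0 + p.2)) p.1
    -- the double series converges absolutely
    have hnorm : ∀ (w : Fin n → ℤ) (k : ℤ),
        ‖gTerm (schur A) z (shift (u0 + k)) w‖ = ‖gTerm (schur A) z (shift u0) w‖ := by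
      intro w k
      rw [norm_gTerm, norm_gTerm]
      congr 2
      simp [shift, Complex.div_im, Complex.mul_im]
    have hh : Summable (fun k => ‖h k‖) := summable_norm_iff.mpr (hasSum_gauss_line ha hz u0).summable
    have hF : Summable F := by
      refine Summable.of_norm ?_
      refine ((summable_norm_gTerm hS hz (shift u0)).mul_of_nonneg hh (fun _ => norm_nonneg _)
        (fun _ => norm_nonneg _)).congr fun p => ?_
      simp [F, hnorm, mul_comm]
    -- the two ways of splitting a series on `Fin (n+1)`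
    let e := Fin.consEquiv fun _ : Fin (n + 1) => ℤ
    have hsum1 : Summable (gTerm A z u ∘ e) :=
      e.summable_iff.mpr (summable_norm_iff.mp (summable_norm_gTerm hA hz u))
    have hsum2 : Summable (gDual A z u ∘ e) :=
      e.summable_iff.mpr (summable_norm_iff.mp (summable_norm_gDual hA hz u))
    have hcons : ∀ (m : ℤ) (w : Fin n → ℤ), cvec (e (m, w)) = Fin.cons (m : ℂ) (cvec w) := by
      intro m w; ext i; refine Fin.cases ?_ ?_ i <;> simp [e, cvec]
    -- summing over the first coordinate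
    have hline : ∀ w : Fin n → ℤ, ∑' m, gTerm A z u (e (m, w))
        = ((Real.sqrt a : ℂ) * r)⁻¹ * ∑' k, F (w, k) := by
      intro w
      have hJ := hasSum_jacobiTheta₂_term (z * lin w + u0)
        (show 0 < ((a : ℂ) * z).im by simpa using mul_pos ha hz)
      have e1 : ∀ m : ℤ, gTerm A z u (e (m, w)) =
          cexp (π * I * z * (lin w ^ 2 / a + qC (schur A) (cvec w)) + 2 * π * I * (ut ⬝ᵥ cvec w)) *
            jacobiTheta₂_term m (z * lin w + u0) (a * z) := by
        intro m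
        rw [gTerm, jacobiTheta₂_term, ← Complex.exp_add, hcons, qC_cons hA]
        have hdot : u ⬝ᵥ Fin.cons (m : ℂ) (cvec w) = u0 * m + ut ⬝ᵥ cvec w := by
          simp [dotProduct, Fin.sum_univ_succ, u0, ut]
        rw [hdot]
        congr 1
        simp only [lin, ← hadef]
        field_simp
        ring
      have e2 : ∀ k : ℤ, F (w, k) =
          cexp (π * I * z * (lin w ^ 2 / a + qC (schur A) (cvec w)) + 2 * π * I * (ut ⬝ᵥ cvec w)) *
            cexp (-π * I * ((z * lin w + u0) + k) ^ 2 / (a * z)) := by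
        intro k
        simp only [F, h, gTerm, ← Complex.exp_add]
        have hdot : shift (u0 + k) ⬝ᵥ cvec w = ut ⬝ᵥ cvec w - lin w * (u0 + k) / a := by
          simp [dotProduct, shift, lin, sub_mul, Finset.sum_sub_distrib, Finset.sum_mul,
            Finset.sum_div]
          exact Finset.sum_congr rfl fun i _ => by ring
        rw [hdot]
        congr 1
        field_simp
        ring
      rw [tsum_congr e1, tsum_congr e2, tsum_mul_left, tsum_mul_left,
        (hasSum_gauss_line ha hz _).tsum_eq, hJ.tsum_eq, ← hr]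
      field_simp
    -- summing over the other coordinates
    have hrest : ∀ k : ℤ, ∑' w, F (w, k) =
        ((Real.sqrt (schur A).det : ℂ) * r ^ n)⁻¹ * ∑' v, gDual A z u (e (k, v)) := by
      intro k
      simp only [F]
      rw [tsum_mul_left, tsum_gTerm hS hz, ← hr, mul_left_comm, ← tsum_mul_left (a := h k)]
      refine congrArg _ (tsum_congr fun v => ?_)
      simp only [h, gDual, ← Complex.exp_add]
      rw [hcons, show (Fin.cons (k : ℂ) (cvec v) + u : Fin (n + 1) → ℂ) =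
          Fin.cons (u0 + k) (fun i => cvec v i + ut i) by
        ext i; refine Fin.cases ?_ ?_ i <;> simp [u0, ut, add_comm], qC_inv_cons hA]
      have hy : (fun i => cvec v i + ut i - (A 0 i.succ : ℂ) * (u0 + k) / (A 0 0 : ℝ))
          = cvec v + shift (u0 + k) := by
        ext i; simp [shift, hadef, add_sub_assoc]
      rw [hy]
      congr 1
      simp only [← hadef]
      field_simp
      ring
    have hswap : ∑' w, ∑' k, F (w, k) = ∑' k, ∑' w, F (w, k) :=
      (Summable.tsum_comm (f := fun w k => F (w, k)) hF).symm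
    calc ∑' w, gTerm A z u w = ∑' p, gTerm A z u (e p) := (e.tsum_eq _).symm
      _ = ∑' w, ∑' m, gTerm A z u (e (m, w)) := by
          rw [← (Equiv.prodComm (Fin n → ℤ) ℤ).tsum_eq]
          exact ((Equiv.prodComm (Fin n → ℤ) ℤ).summable_iff.mpr hsum1).tsum_prod
      _ = ((Real.sqrt a : ℂ) * r)⁻¹ * ∑' w, ∑' k, F (w, k) := by
          rw [tsum_congr hline, tsum_mul_left]
      _ = ((Real.sqrt a : ℂ) * r)⁻¹ * (((Real.sqrt (schur A).det : ℂ) * r ^ n)⁻¹ *
            ∑' k, ∑' v, gDual A z u (e (k, v))) := by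
          rw [hswap, tsum_congr hrest, tsum_mul_left]
      _ = _ := by
          have hd : ∑' k, ∑' v, gDual A z u (e (k, v)) = ∑' v, gDual A z u v :=
            (hsum2.tsum_prod).symm.trans (e.tsum_eq _)
          rw [hd, det_schur hA, Real.sqrt_mul ha.le, ← mul_assoc]
          congr 1
          push_cast
          rw [pow_succ, ← mul_inv]
          ring

end Fermat.Agent.Theta
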