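import Fermat.Agent.Theta.Binary

/-!
Combinations of `θ(Q_i)(τ) θ(Q₀)(mτ)` for binary forms `Q_i` with weights summing to zero on every
class of forms with equal Gauss sums are cusp forms of weight two on `Γ₀(N m)`.
-/

set_option autoImplicit false

open Complex Matrix
open scoped Real UpperHalfPlane MatrixGroups

namespace Fermat.Agent.Theta

namespace BinForm

variable {R : Type*} [CommRing R]

/-- The multiple `m · q` of a binary form. -/
def scale (m : ℤ) (q : BinForm) : BinForm := ⟨m * q.a, m * q.b, m * q.c⟩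

theorem eval_scale (m : ℤ) (q : BinForm) (v : R × R) :
    (q.scale m).eval v = (m : R) * q.eval v := by
  simp [scale, eval]; ring

theorem negDisc_scale (m : ℤ) (q : BinForm) : (q.scale m).negDisc = m ^ 2 * q.negDisc := by
  simp [scale, negDisc]; ring

theorem isPos_scale {m : ℕ} (hm : 0 < m) {q : BinForm} (hq : q.IsPos) :
    (q.scale (m : ℤ)).IsPos := by
  have hm' : (0 : ℤ) < m := by exact_mod_cast hm
  refine ⟨mul_pos hm' hq.1, ?_⟩
  rw [negDisc_scale]
  exact mul_pos (pow_pos hm' 2) hq.2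

end BinForm

variable {q q' : BinForm}

/-- `Q ⊕ m Q'` has level dividing `N m` when both discriminants divide `N`. -/
theorem isLattice_pairMatrix_scale {N m : ℕ} (hm : 0 < m) (hq : q.IsPos) (hq' : q'.IsPos)
    (hd : q.negDisc ∣ (N : ℤ)) (hd' : q'.negDisc ∣ (N : ℤ))
    (hsq : IsSquare (q.negDisc * q'.negDisc)) :
    IsLattice (N * m) (pairMatrix q (q'.scale (m : ℤ))) := by
  obtain ⟨k, hk⟩ := hd
  obtain ⟨k', hk'⟩ := hd'
  refine ⟨isEvenMatrix_pairMatrix, posDef_pairMatrix hq (BinForm.isPos_scale hm hq'), ?_, ?_⟩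
  · refine ⟨pairMatrix ⟨q.c * k * m, -(q.b * k * m), q.a * k * m⟩
      ⟨q'.c * k', -(q'.b * k'), q'.a * k'⟩, isEvenMatrix_pairMatrix, ?_⟩
    simp only [BinForm.negDisc] at hk hk'
    ext i j
    fin_cases i <;> fin_cases j <;>
      simp [pairMatrix, BinForm.scale, Matrix.mul_apply, Fin.sum_univ_four] <;>
      first
        | ring1
        | linear_combination -(m : ℤ) * hk
        | linear_combination -(m : ℤ) * hk'
  · rw [det_pairMatrix, BinForm.negDisc_scale]
    obtain ⟨r, hr⟩ := hsq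
    exact ⟨r * m, by linear_combination (m : ℤ) ^ 2 * hr⟩

/-- The representation number of `Q(x) + m Q'(y)`. -/
theorem repCount_pairMatrix_scale (m : ℤ) (n : ℕ) :
    repCount (pairMatrix q (q'.scale m)) n =
      Nat.card {p : (ℤ × ℤ) × (ℤ × ℤ) // q.eval p.1 + m * q'.eval p.2 = (n : ℤ)} :=
  Nat.card_congr
    { toFun := fun v => ⟨((v.1 0, v.1 1), (v.1 2, v.1 3)), by
        have h := v.2
        rwa [qPoly_pairMatrix, BinForm.eval_scale, Int.cast_id] at h⟩
      invFun := fun p => ⟨![p.1.1.1, p.1.1.2, p.1.2.1, p.1.2.2], by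
        rw [qPoly_pairMatrix, BinForm.eval_scale, Int.cast_id]
        exact p.2⟩
      left_inv := fun v => Subtype.ext (funext fun i => by fin_cases i <;> rfl)
      right_inv := fun p => rfl }

variable {N m : ℕ} [NeZero N] [NeZero m] {ι κ : Type*} [Fintype ι] [DecidableEq κ]

/-- A sum of weights times a function constant on the fibres vanishes if each fibre sum does. -/
theorem sum_mul_eq_zero_of_fibres (g : ι → κ) (w : ι → ℂ)
    (hw : ∀ k, (∑ i with g i = k, w i) = 0) (f : ι → ℂ) (hf : ∀ i j, g i = g j → f i = f j) :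
    ∑ i, w i * f i = 0 := by
  classical
  rw [← Finset.sum_fiberwise_of_maps_to (t := Finset.univ.image g)
    (fun i _ => Finset.mem_image_of_mem g (Finset.mem_univ i))]
  refine Finset.sum_eq_zero fun k hk => ?_
  obtain ⟨i₀, -, rfl⟩ := Finset.mem_image.mp hk
  rw [Finset.sum_congr rfl (g := fun i => w i * f i₀) (fun i hi => by
      rw [hf i i₀ (Finset.mem_filter.mp hi).2]), ← Finset.sum_mul, hw, zero_mul]

/-- `∑ wᵢ θ(Qᵢ)(τ) θ(Q₀)(mτ)` as a cusp form on `Γ₀(N m)`. -/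
noncomputable def scaledCuspForm (Q : ι → BinForm) {D : ℤ} (hD : ∀ i, (Q i).negDisc = D)
    (Q₀ : BinForm) (hQ : ∀ i, (Q i).IsPos) (hQ₀ : Q₀.IsPos) (hDN : D ∣ (N : ℤ))
    (hD₀N : Q₀.negDisc ∣ (N : ℤ)) (hsq : IsSquare (D * Q₀.negDisc)) (g : ι → κ) (w : ι → ℂ)
    (hw : ∀ k, (∑ i with g i = k, w i) = 0)
    (hgauss : ∀ i j, g i = g j → ∀ (c : ℕ) [NeZero c] (a : ℤ), IsCoprime a (c : ℤ) →
      (Q i).gaussSum₂ c a = (Q j).gaussSum₂ c a) :
    CuspForm (CongruenceSubgroup.Gamma0 (N * m)) 2 :=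
  thetaCuspForm (N := N * m) (A := fun i => pairMatrix (Q i) (Q₀.scale (m : ℤ)))
    (fun i => isLattice_pairMatrix_scale (NeZero.pos m) (hQ i) hQ₀ (hD i ▸ hDN) hD₀N (hD i ▸ hsq))
    w
    (by simpa using sum_mul_eq_zero_of_fibres g w hw (fun _ => 1) fun _ _ _ => rfl)
    (fun c _ a hac => by
      refine (Finset.sum_congr rfl fun i _ => ?_).trans
        (sum_mul_eq_zero_of_fibres g w hw (fun i =>
          ((Real.sqrt ((D * (Q₀.scale (m : ℤ)).negDisc : ℤ) : ℝ) : ℝ) : ℂ)⁻¹ *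
          ((Q i).gaussSum₂ c a * (Q₀.scale (m : ℤ)).gaussSum₂ c a))
          fun i j hij => by simp only [hgauss i j hij c a hac])
      rw [gauss_pairMatrix, show (realMat (pairMatrix (Q i) (Q₀.scale (m : ℤ)))).det =
        (((pairMatrix (Q i) (Q₀.scale (m : ℤ))).det : ℤ) : ℝ) from
          ((Int.castRingHom ℝ).map_det _).symm, det_pairMatrix, hD]
      ring)

theorem qCoeff_scaledCuspForm (Q : ι → BinForm) {D : ℤ} (hD : ∀ i, (Q i).negDisc = D)
    (Q₀ : BinForm) (hQ : ∀ i, (Q i).IsPos) (hQ₀ : Q₀.IsPos) (hDN : D ∣ (N : ℤ))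
    (hD₀N : Q₀.negDisc ∣ (N : ℤ)) (hsq : IsSquare (D * Q₀.negDisc)) (g : ι → κ) (w : ι → ℂ)
    (hw : ∀ k, (∑ i with g i = k, w i) = 0)
    (hgauss : ∀ i j, g i = g j → ∀ (c : ℕ) [NeZero c] (a : ℤ), IsCoprime a (c : ℤ) →
      (Q i).gaussSum₂ c a = (Q j).gaussSum₂ c a) (n : ℕ) :
    ModularFormClass.qCoeff
        (scaledCuspForm (m := m) Q hD Q₀ hQ hQ₀ hDN hD₀N hsq g w hw hgauss) n =
      ∑ i, w i * Nat.card {p : (ℤ × ℤ) × (ℤ × ℤ) //
        (Q i).eval p.1 + (m : ℤ) * Q₀.eval p.2 = (n : ℤ)} := by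
  rw [scaledCuspForm, qCoeff_thetaCuspForm]
  simp only [repCount_pairMatrix_scale]

/-- The same coefficients as a convolution of binary representation numbers. -/
theorem card_eval_add_scale (hq : q.IsPos) (hq' : q'.IsPos) {N m : ℕ} (hm : 0 < m)
    (hd : q.negDisc ∣ (N : ℤ)) (hd' : q'.negDisc ∣ (N : ℤ))
    (hsq : IsSquare (q.negDisc * q'.negDisc)) (n : ℕ) :
    Nat.card {p : (ℤ × ℤ) × (ℤ × ℤ) // q.eval p.1 + (m : ℤ) * q'.eval p.2 = (n : ℤ)} =
      ∑ p ∈ (Finset.HasAntidiagonal.antidiagonal n : Finset (ℕ × ℕ)),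
        q.count p.1 * (q'.scale (m : ℤ)).count p.2 :=
  (repCount_pairMatrix_scale (m : ℤ) n).symm.trans
    (repCount_pairMatrix (isLattice_pairMatrix_scale hm hq hq' hd hd' hsq) hq
      (BinForm.isPos_scale hm hq') n)

end Fermat.Agent.Theta
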