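import Fermat.Agent.Theta.Poisson
import Fermat.Agent.Theta.Form

/-!
The behaviour of the theta series of an even positive quaternary form near a rational point, and
its invariance under the elements of `Γ₀(N)` whose lower right entry is a large prime.
-/

set_option autoImplicit false

open Complex Matrix
open scoped Real ComplexOrder UpperHalfPlane MatrixGroups ModularForm

namespace Fermat.Agent.Theta

/-- An integral matrix read as a real matrix. -/
abbrev realMat (A : Matrix (Fin 4) (Fin 4) ℤ) : Matrix (Fin 4) (Fin 4) ℝ := castMat ℝ A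

/-- Positive definite even quaternary forms of square determinant whose level divides `N`. -/
structure IsLattice (N : ℕ) (A : Matrix (Fin 4) (Fin 4) ℤ) : Prop where
  evenMatrix : IsEvenMatrix A
  pos : (realMat A).PosDef
  dual : ∃ A' : Matrix (Fin 4) (Fin 4) ℤ, IsEvenMatrix A' ∧
    A * A' = (N : ℤ) • (1 : Matrix (Fin 4) (Fin 4) ℤ)
  square : IsSquare A.det

/-- The theta series as a function of a complex variable. -/
noncomputable def thetaC (A : Matrix (Fin 4) (Fin 4) ℤ) (z : ℂ) : ℂ :=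
  ∑' v : Fin 4 → ℤ, gTerm (realMat A) z 0 v

/-- The theta series on the upper half plane. -/
noncomputable def theta (A : Matrix (Fin 4) (Fin 4) ℤ) (τ : ℍ) : ℂ :=
  thetaC A τ

variable {A : Matrix (Fin 4) (Fin 4) ℤ} {N : ℕ}

theorem qC_cvec_eq (hA : IsEvenMatrix A) (v : Fin 4 → ℤ) :
    qC (realMat A) (cvec v) = ((2 * qPoly A v : ℤ) : ℂ) := by
  rw [two_mul_qPoly hA]
  simp [qC, castMat, cvec, dotProduct, mulVec]

/-- The exponential sum occurring in the expansion at a rational point. -/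
noncomputable def phase (A : Matrix (Fin 4) (Fin 4) ℤ) (c : ℕ) [NeZero c] (a : ℤ)
    (v : Fin 4 → ℤ) : ℂ :=
  ∑ r : Fin 4 → ZMod c,
    ZMod.stdAddChar ((a : ZMod c) * qPoly A r - (fun i => (v i : ZMod c)) ⬝ᵥ r)

theorem phase_zero (A : Matrix (Fin 4) (Fin 4) ℤ) (c : ℕ) [NeZero c] (a : ℤ) :
    phase A c a 0 = gauss A c a := by
  simp [phase, gauss, dotProduct]

theorem norm_phase_le (A : Matrix (Fin 4) (Fin 4) ℤ) (c : ℕ) [NeZero c] (a : ℤ)
    (v : Fin 4 → ℤ) : ‖phase A c a v‖ ≤ (c : ℝ) ^ 4 := by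
  refine (norm_sum_le _ _).trans ?_
  simp [ZMod.stdAddChar_apply]

/-- Splitting an integral vector along a modulus. -/
def residueEquiv (c : ℕ) [NeZero c] :
    (Fin 4 → ℤ) ≃ (Fin 4 → ZMod c) × (Fin 4 → ℤ) where
  toFun v := (fun i => (v i : ZMod c), fun i => v i / (c : ℤ))
  invFun p := fun i => ((p.1 i).val : ℤ) + c * p.2 i
  left_inv v := by
    funext i
    simp only [ZMod.val_intCast]
    exact Int.emod_add_mul_ediv (v i) c
  right_inv p := by
    obtain ⟨r, w⟩ := p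
    simp only [Prod.mk.injEq]
    refine ⟨funext fun i => ?_, funext fun i => ?_⟩
    · simp
    · have hc : (0 : ℤ) < c := by exact_mod_cast Nat.pos_of_ne_zero (NeZero.ne c)
      have h1 : ((r i).val : ℤ) < c := by exact_mod_cast ZMod.val_lt (r i)
      rw [Int.add_mul_ediv_left _ _ hc.ne', Int.ediv_eq_zero_of_lt (by positivity) h1, zero_add]

theorem map_inv_mulVec {B : Matrix (Fin 4) (Fin 4) ℝ} (hB : B.PosDef) (x : Fin 4 → ℂ) :
    (B⁻¹.map ((↑) : ℝ → ℂ)) *ᵥ ((B.map ((↑) : ℝ → ℂ)) *ᵥ x) = x := by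
  have h := congrArg (fun M => M.map Complex.ofRealHom)
    (Matrix.nonsing_inv_mul B ((Matrix.isUnit_iff_isUnit_det B).mp hB.isUnit))
  rw [Matrix.map_mul] at h
  rw [mulVec_mulVec]
  refine (congrArg (fun M => M *ᵥ x)
    (h.trans (Matrix.map_one _ (map_zero _) (map_one _)))).trans (one_mulVec x)

/-- The terms of the theta series grouped by the class of the index modulo `c`. -/
theorem gTerm_residue (hA : IsLattice N A) (c : ℕ) [NeZero c] (a : ℤ) (σ : ℂ)
    (r : Fin 4 → ZMod c) (w : Fin 4 → ℤ) :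
    gTerm (realMat A) (a / c + σ) 0 ((residueEquiv c).symm (r, w)) =
      ZMod.stdAddChar ((a : ZMod c) * qPoly A r) *
        cexp (π * I * σ * qC (realMat A) (cvec fun i => ((r i).val : ℤ))) *
        gTerm (realMat A) ((c : ℂ) ^ 2 * σ)
          ((σ * c) • (((realMat A).map ((↑) : ℝ → ℂ)) *ᵥ cvec fun i => ((r i).val : ℤ))) w := by
  set v := (residueEquiv c).symm (r, w) with hv
  have hc : (c : ℂ) ≠ 0 := Nat.cast_ne_zero.mpr (NeZero.ne c)
  have hsplit : cvec v = (c : ℂ) • cvec w + cvec fun i => ((r i).val : ℤ) := by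
    funext i
    simp [hv, residueEquiv, cvec]
    ring
  have hres : ((qPoly A v : ℤ) : ZMod c) = qPoly A r := by
    rw [qPoly_intCast]
    congr 1
    funext i
    simp [hv, residueEquiv]
  have hchar : ZMod.stdAddChar ((a : ZMod c) * qPoly A r) =
      cexp (π * I * (a / c) * qC (realMat A) (cvec v)) := by
    rw [← hres, ← Int.cast_mul, ZMod.stdAddChar_coe, qC_cvec_eq hA.evenMatrix]
    congr 1
    push_cast
    field_simp
  have hq : qC (realMat A) (cvec v) = (c : ℂ) ^ 2 * qC (realMat A) (cvec w) +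
      2 * (c * ((((realMat A).map ((↑) : ℝ → ℂ)) *ᵥ cvec fun i => ((r i).val : ℤ)) ⬝ᵥ cvec w)) +
      qC (realMat A) (cvec fun i => ((r i).val : ℤ)) := by
    rw [hsplit, qC_add hA.pos, dotProduct_smul, smul_eq_mul]
    simp [qC, mulVec_smul, sq, mul_assoc]
  rw [hchar]
  simp only [gTerm, zero_dotProduct, mul_zero, add_zero, ← Complex.exp_add, smul_dotProduct,
    smul_eq_mul]
  congr 1
  rw [hq]
  ring

/-- The expansion of the theta series near the rational point `a / c`. -/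
theorem thetaC_expansion (hA : IsLattice N A) (c : ℕ) [NeZero c] (a : ℤ) {σ : ℂ}
    (hσ : 0 < σ.im) :
    thetaC A (a / c + σ) = -((Real.sqrt (realMat A).det : ℂ) * (c : ℂ) ^ 4 * σ ^ 2)⁻¹ *
      ∑' v : Fin 4 → ℤ, phase A c a v *
        cexp (-π * I / ((c : ℂ) ^ 2 * σ) * qC (realMat A)⁻¹ (cvec v)) := by
  have hc : (c : ℂ) ≠ 0 := Nat.cast_ne_zero.mpr (NeZero.ne c)
  have h0 : σ ≠ 0 := fun h => by simp [h] at hσ
  have hz : 0 < ((c : ℂ) ^ 2 * σ).im := by
    rw [show (c : ℂ) ^ 2 = (((c : ℝ) ^ 2 : ℝ) : ℂ) by push_cast; rfl, im_ofReal_mul]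
    have : (0 : ℝ) < c := by exact_mod_cast Nat.pos_of_ne_zero (NeZero.ne c)
    positivity
  have hzσ : 0 < ((a : ℂ) / c + σ).im := by simpa using hσ
  set K : ℂ := -((Real.sqrt (realMat A).det : ℂ) * (c : ℂ) ^ 4 * σ ^ 2)⁻¹ with hK
  set g : (Fin 4 → ℤ) → ℂ :=
    fun v => cexp (-π * I / ((c : ℂ) ^ 2 * σ) * qC (realMat A)⁻¹ (cvec v)) with hg
  have hgsum : Summable g := by
    have := summable_norm_gDual hA.pos hz 0
    refine (summable_norm_iff.mp this).congr fun v => ?_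
    simp [gDual, hg]
  have hbd : ∀ r : Fin 4 → ZMod c, Summable fun v : Fin 4 → ℤ =>
      ZMod.stdAddChar ((a : ZMod c) * qPoly A r - (fun i => (v i : ZMod c)) ⬝ᵥ r) * g v :=
    fun r => hgsum.norm.of_norm_bounded fun v => by
      simp [ZMod.stdAddChar_apply]
  -- each class modulo `c`
  have hclass : ∀ r : Fin 4 → ZMod c,
      ∑' w, gTerm (realMat A) (a / c + σ) 0 ((residueEquiv c).symm (r, w)) =
        K * ∑' v : Fin 4 → ℤ,
          ZMod.stdAddChar ((a : ZMod c) * qPoly A r - (fun i => (v i : ZMod c)) ⬝ᵥ r) * g v := by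
    intro r
    simp only [gTerm_residue hA c a σ r]
    rw [tsum_mul_left, tsum_gTerm hA.pos hz, mul_left_comm]
    congr 1
    · rw [hK, ← cpow_nat_mul, show ((4 : ℕ) : ℂ) * (1 / 2) = ((2 : ℕ) : ℂ) by norm_num,
        cpow_natCast, mul_pow, neg_pow, I_sq, mul_pow, ← pow_mul, ← inv_neg]
      congr 1
      ring
    · rw [← tsum_mul_left]
      refine tsum_congr fun v => ?_
      set x : Fin 4 → ℂ := cvec fun i => ((r i).val : ℤ) with hx
      have hq : qC (realMat A)⁻¹ (cvec v + (σ * c) • (((realMat A).map ((↑) : ℝ → ℂ)) *ᵥ x))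
          = qC (realMat A)⁻¹ (cvec v) + 2 * (σ * c * (x ⬝ᵥ cvec v))
            + (σ * c) ^ 2 * qC (realMat A) x := by
        rw [qC_add hA.pos.inv, mulVec_smul, map_inv_mulVec hA.pos, smul_dotProduct, smul_eq_mul]
        congr 1
        simp only [qC, mulVec_smul, map_inv_mulVec hA.pos, smul_dotProduct, dotProduct_smul,
          smul_eq_mul]
        rw [dotProduct_comm]
        ring
      have hv : (((fun i => ((r i).val : ℤ)) ⬝ᵥ v : ℤ) : ZMod c)
          = (fun i => (v i : ZMod c)) ⬝ᵥ r := by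
        simp [dotProduct, mul_comm]
      have hxv : (((fun i => ((r i).val : ℤ)) ⬝ᵥ v : ℤ) : ℂ) = x ⬝ᵥ cvec v := by
        simp [hx, cvec, dotProduct]
      rw [sub_eq_add_neg, AddChar.map_add_eq_mul, ← hv, ← Int.cast_neg, ZMod.stdAddChar_coe]
      simp only [gDual, hg, mul_assoc, ← Complex.exp_add, hq]
      congr 2
      push_cast
      rw [hxv]
      field_simp
      ring
  have hsum : Summable fun p => gTerm (realMat A) (a / c + σ) 0 ((residueEquiv c).symm p) :=
    (residueEquiv c).symm.summable_iff.mpr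
      (summable_norm_iff.mp (summable_norm_gTerm hA.pos hzσ 0))
  calc thetaC A (a / c + σ)
      = ∑' p, gTerm (realMat A) (a / c + σ) 0 ((residueEquiv c).symm p) :=
        ((residueEquiv c).symm.tsum_eq _).symm
    _ = ∑ r, ∑' w, gTerm (realMat A) (a / c + σ) 0 ((residueEquiv c).symm (r, w)) := by
        rw [hsum.tsum_prod, tsum_fintype]
    _ = _ := by
        simp only [hclass, ← Finset.mul_sum]
        rw [← Summable.tsum_finsetSum fun r _ => hbd r]
        simp [phase, Finset.sum_mul, hg]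

/-- The inversion formula at the origin. -/
theorem thetaC_inversion (hA : IsLattice N A) {τ : ℂ} (hτ : 0 < τ.im) :
    thetaC A τ = -((Real.sqrt (realMat A).det : ℂ) * τ ^ 2)⁻¹ *
      ∑' v : Fin 4 → ℤ, cexp (-π * I / τ * qC (realMat A)⁻¹ (cvec v)) := by
  have h := thetaC_expansion hA 1 0 hτ
  simpa [phase, ZMod.stdAddChar_apply, Subsingleton.elim _ (0 : ZMod 1)] using h

theorem coe_SL_smul (γ : SL(2, ℤ)) (τ : ℍ) :
    ((γ • τ : ℍ) : ℂ) = ((γ 0 0 : ℂ) * τ + γ 0 1) / ((γ 1 0 : ℂ) * τ + γ 1 1) := by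
  rw [UpperHalfPlane.coe_specialLinearGroup_apply]
  simp

theorem SL_denom_ne_zero (γ : SL(2, ℤ)) (τ : ℍ) : (γ 1 0 : ℂ) * τ + γ 1 1 ≠ 0 := by
  simpa [UpperHalfPlane.denom] using UpperHalfPlane.denom_ne_zero (γ : GL (Fin 2) ℝ) τ

theorem SL_det_eq (γ : SL(2, ℤ)) : γ 0 0 * γ 1 1 - γ 0 1 * γ 1 0 = 1 := by
  have h := γ.det_coe
  rwa [Matrix.det_fin_two] at h

theorem realMat_inv {A' : Matrix (Fin 4) (Fin 4) ℤ}
    (h : A * A' = (N : ℤ) • (1 : Matrix (Fin 4) (Fin 4) ℤ)) (hN : N ≠ 0) :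
    (realMat A)⁻¹ = (N : ℝ)⁻¹ • realMat A' := by
  refine Matrix.inv_eq_right_inv ?_
  have h' := congrArg (fun M => M.map (Int.castRingHom ℝ)) h
  rw [Matrix.map_mul, Matrix.smul_one_eq_diagonal] at h'
  rw [Matrix.mul_smul]
  refine (congrArg ((N : ℝ)⁻¹ • ·) h').trans ?_
  ext i j
  have hN' : (N : ℝ) ≠ 0 := Nat.cast_ne_zero.mpr hN
  rcases eq_or_ne i j with rfl | hij <;> simp [*]

/-- Completing the square: the exponential sum at a unit numerator. -/
theorem phase_prime (hA : IsLattice N A) {A' : Matrix (Fin 4) (Fin 4) ℤ}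
    (hA' : IsEvenMatrix A') (hdual : A * A' = (N : ℤ) • (1 : Matrix (Fin 4) (Fin 4) ℤ))
    (d : ℕ) [NeZero d] {b l : ℤ} (hb : (b : ZMod d) * (((N : ℤ) * l : ℤ) : ZMod d) = -1)
    (v : Fin 4 → ℤ) :
    phase A d b v =
      ZMod.stdAddChar ((l * qPoly A' v : ℤ) : ZMod d) * gauss A d b := by
  set w : Fin 4 → ZMod d := fun i => (v i : ZMod d) with hw
  set t : Fin 4 → ZMod d := (-(l : ZMod d)) • (castMat (ZMod d) A' *ᵥ w) with ht
  have hAA' : castMat (ZMod d) A *ᵥ (castMat (ZMod d) A' *ᵥ w) = ((N : ℤ) : ZMod d) • w := by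
    have h := congrArg (fun M => M.map (Int.castRingHom (ZMod d))) hdual
    rw [Matrix.map_mul, Matrix.smul_one_eq_diagonal] at h
    rw [mulVec_mulVec]
    refine (congrArg (fun M => M *ᵥ w) h).trans ?_
    funext i
    simp [Matrix.diagonal_map, Matrix.mulVec_diagonal]
  have hAt : castMat (ZMod d) A *ᵥ t = (-(l : ZMod d) * ((N : ℤ) : ZMod d)) • w := by
    rw [ht, mulVec_smul, hAA', smul_smul]
  have hQ' : ((qPoly A' v : ℤ) : ZMod d) = qPoly A' w := by
    rw [qPoly_intCast]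
  have hQt : qPoly A t = (l : ZMod d) ^ 2 * ((N : ℤ) : ZMod d) * qPoly A' w := by
    rw [ht, qPoly_smul]
    have h : 2 * qPoly A (A' *ᵥ v) = 2 * ((N : ℤ) * qPoly A' v) := by
      rw [two_mul_qPoly hA.evenMatrix, mul_left_comm, two_mul_qPoly hA']
      have hId : ∀ B : Matrix (Fin 4) (Fin 4) ℤ, castMat ℤ B = B := fun B => by
        ext i j; simp [castMat]
      rw [hId, hId, mulVec_mulVec, hdual, smul_mulVec, one_mulVec, dotProduct_smul, smul_eq_mul,
        dotProduct_comm]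
    have h' := congrArg (fun z : ℤ => (z : ZMod d)) (mul_left_cancel₀ two_ne_zero h)
    simp only [qPoly_intCast, Int.cast_mul] at h'
    have e : (fun i => (((A' *ᵥ v) i : ℤ) : ZMod d)) = castMat (ZMod d) A' *ᵥ w := by
      funext i; simp [mulVec, dotProduct, castMat, hw]
    rw [e, ← hw] at h'
    rw [h']
    ring
  have hwt : w ⬝ᵥ t = -(l : ZMod d) * (2 * qPoly A' w) := by
    rw [ht, dotProduct_smul, smul_eq_mul, two_mul_qPoly hA']
  unfold phase gauss
  rw [Finset.mul_sum, ← Equiv.sum_comp (Equiv.addRight t)]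
  refine Finset.sum_congr rfl fun s _ => ?_
  rw [← AddChar.map_add_eq_mul]
  congr 1
  simp only [Equiv.coe_addRight]
  rw [qPoly_add hA.evenMatrix, hAt, dotProduct_smul, smul_eq_mul, dotProduct_comm s w,
    dotProduct_add, hQt, hwt, Int.cast_mul, hQ']
  simp only [Int.cast_mul] at hb
  linear_combination (qPoly A' w * (l : ZMod d) - w ⬝ᵥ s) * hb

/-- Invariance under an element of `Γ₀(N)` whose lower right entry is a large prime. -/
theorem theta_slash_of_prime (hA : IsLattice N A) (hN : N ≠ 0) {γ : SL(2, ℤ)}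
    (hγ : γ ∈ CongruenceSubgroup.Gamma0 N) {p : ℕ} [Fact p.Prime] (hp : p ≠ 2)
    (hdet : (A.det : ZMod p) ≠ 0) (hd : γ 1 1 = (p : ℤ)) :
    theta A ∣[(2 : ℤ)] γ = theta A := by
  obtain ⟨A', hA', hdual⟩ := hA.dual
  obtain ⟨l, hl⟩ : (N : ℤ) ∣ γ 1 0 :=
    (ZMod.intCast_zmod_eq_zero_iff_dvd _ _).mp (CongruenceSubgroup.Gamma0_mem.mp hγ)
  have hdetγ := SL_det_eq γ
  have hb : (γ 0 1 : ZMod p) * (((N : ℤ) * l : ℤ) : ZMod p) = -1 := by
    have h := congrArg (fun z : ℤ => (z : ZMod p)) hdetγ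
    simp only [Int.cast_sub, Int.cast_mul, Int.cast_one, hd, Int.cast_natCast,
      ZMod.natCast_self, mul_zero, zero_sub, ← hl] at h ⊢
    rw [← h]; ring
  have hb0 : (γ 0 1 : ZMod p) ≠ 0 := by
    intro h; rw [h, zero_mul] at hb; exact (neg_ne_zero.mpr one_ne_zero) hb.symm
  funext τ
  rw [(ModularForm.slash_action_eq'_iff (2 : ℤ) (theta A) γ τ)]
  set E : ℂ := (γ 1 0 : ℂ) * τ + γ 1 1 with hE
  have hE0 : E ≠ 0 := SL_denom_ne_zero γ τ
  have hp0 : (p : ℂ) ≠ 0 := Nat.cast_ne_zero.mpr (NeZero.ne p)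
  have hτ0 : (τ : ℂ) ≠ 0 := τ.ne_zero
  set σ : ℂ := ((γ • τ : ℍ) : ℂ) - (γ 0 1 : ℂ) / p with hσdef
  have hσ : σ = τ / (p * E) := by
    have h := congrArg (fun z : ℤ => (z : ℂ)) hdetγ
    simp only [Int.cast_sub, Int.cast_mul, Int.cast_one, hd, Int.cast_natCast] at h
    rw [hσdef, coe_SL_smul, ← hE, div_sub_div _ _ hE0 hp0, mul_comm E (p : ℂ)]
    congr 1
    rw [hE, hd]
    push_cast
    linear_combination (τ : ℂ) * h
  have hσim : 0 < σ.im := by
    have h : σ.im = (γ • τ : ℍ).im := by simp [hσdef]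
    rw [h]; exact (γ • τ).im_pos
  have h1 : theta A (γ • τ) = thetaC A ((γ 0 1 : ℂ) / p + σ) := by
    unfold theta; rw [hσdef, add_sub_cancel]
  rw [h1, thetaC_expansion hA p (γ 0 1) hσim]
  unfold theta
  rw [thetaC_inversion hA τ.im_pos]
  have hterm : ∀ v : Fin 4 → ℤ, phase A p (γ 0 1) v *
      cexp (-π * I / ((p : ℂ) ^ 2 * σ) * qC (realMat A)⁻¹ (cvec v)) =
        (p : ℂ) ^ 2 * cexp (-π * I / (τ : ℂ) * qC (realMat A)⁻¹ (cvec v)) := by
    intro v
    rw [phase_prime hA hA' hdual p hb, gauss_prime hA.evenMatrix hA.square hp hdet hb0,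
      ZMod.stdAddChar_coe, mul_comm (cexp _) ((p : ℂ) ^ 2), mul_assoc, ← Complex.exp_add]
    congr 2
    have hq : qC (realMat A)⁻¹ (cvec v) = ((2 * qPoly A' v : ℤ) : ℂ) / N := by
      rw [realMat_inv hdual hN, ← qC_cvec_eq hA']
      simp [qC, dotProduct, mulVec, Finset.sum_div, Finset.mul_sum]
      exact Finset.sum_congr rfl fun i _ => Finset.sum_congr rfl fun j _ => by ring
    have hN' : (N : ℂ) ≠ 0 := Nat.cast_ne_zero.mpr hN
    rw [hq, hσ, show (p : ℂ) ^ 2 * (τ / (p * E)) = p * τ / E by field_simp]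
    rw [hE, hd, hl]
    push_cast
    field_simp
    ring
  rw [tsum_congr hterm, tsum_mul_left, hσ, zpow_two]
  field_simp

end Fermat.Agent.Theta
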